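import Mathlib

/-!
# Abstract abelian varieties over an algebraically closed field: functor of points with
fields of definition (interface of S26 PLAN kb 66)
-/

set_option autoImplicit false

universe u

open IntermediateField

namespace Fermat.Agent.AVn

/-- Functor of points of an abelian variety `A` of dimension `g` over `K` (with `K` algebraically
closed), with values on commutative `K`-algebras, together with fields of definition, the
valuative criterion, the generic point and the behaviour of rational functions in codimension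
one. -/
structure AVar (K : Type u) [Field K] (g : ℕ) where
  /-- points -/
  Pt : (R : Type u) → [CommRing R] → [Algebra K R] → Type u
  grp : (R : Type u) → [CommRing R] → [Algebra K R] → AddCommGroup (Pt R)
  map : {R S : Type u} → [CommRing R] → [CommRing S] → [Algebra K R] → [Algebra K S] →
    (R →ₐ[K] S) → Pt R → Pt S
  map_add : ∀ {R S : Type u} [CommRing R] [CommRing S] [Algebra K R] [Algebra K S]
    (φ : R →ₐ[K] S) (x y : Pt R), map φ (x + y) = map φ x + map φ y
  map_id : ∀ {R : Type u} [CommRing R] [Algebra K R] (x : Pt R), map (AlgHom.id K R) x = x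
  map_comp : ∀ {R S T : Type u} [CommRing R] [CommRing S] [CommRing T] [Algebra K R]
    [Algebra K S] [Algebra K T] (φ : R →ₐ[K] S) (ψ : S →ₐ[K] T) (x : Pt R),
    map (ψ.comp φ) x = map ψ (map φ x)
  map_injective : ∀ {k Ω : Type u} [Field k] [Field Ω] [Algebra K k] [Algebra K Ω]
    (φ : k →ₐ[K] Ω), Function.Injective (map φ)
  /-- the smallest field of definition `K(z)` of a point `z` with values in a field -/
  fd : {Ω : Type u} → [Field Ω] → [Algebra K Ω] → Pt Ω → IntermediateField K Ω
  fd_le_iff : ∀ {Ω : Type u} [Field Ω] [Algebra K Ω] (z : Pt Ω) (k : IntermediateField K Ω),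
    fd z ≤ k ↔ ∃ z' : Pt k, map k.val z' = z
  fd_fg : ∀ {Ω : Type u} [Field Ω] [Algebra K Ω] (z : Pt Ω), (fd z).FG
  trdeg_fd_le : ∀ {Ω : Type u} [Field Ω] [Algebra K Ω] (z : Pt Ω), Algebra.trdeg K (fd z) ≤ g
  /-- valuative criterion of properness -/
  val_bijective : ∀ {O L : Type u} [CommRing O] [IsDomain O] [ValuationRing O] [Algebra K O]
    [Field L] [Algebra K L] [Algebra O L] [IsFractionRing O L] [IsScalarTower K O L],
    Function.Bijective (map (IsScalarTower.toAlgHom K O L))
  /-- the function field -/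
  F : Type u
  instF : Field F
  algF : Algebra K F
  trdeg_F : Algebra.trdeg K F = g
  /-- the generic point -/
  gen : Pt F
  fd_gen : fd gen = ⊤
  /-- a point with field of definition of transcendence degree `g` is generic -/
  exists_ev : ∀ {Ω : Type u} [Field Ω] [Algebra K Ω] (z : Pt Ω), Algebra.trdeg K (fd z) = g →
    ∃ φ : F →ₐ[K] Ω, map φ gen = z
  ev_unique : ∀ {Ω : Type u} [Field Ω] [Algebra K Ω] (φ ψ : F →ₐ[K] Ω),
    map φ gen = map ψ gen → φ = ψ
  /-- if the special point is generic, the map factors through the generic point -/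
  spec : ∀ {O κ : Type u} [CommRing O] [IsLocalRing O] [Algebra K O] [Field κ] [Algebra K κ]
    (r : O →ₐ[K] κ) [IsLocalHom r] (z : Pt O), Algebra.trdeg K (fd (map r z)) = g →
    ∃ φ : F →ₐ[K] O, map φ gen = z
  /-- rational functions at points of codimension `≤ 1` are defined or have a zero inverse -/
  cod1 : ∀ {O L κ : Type u} [CommRing O] [IsDomain O] [IsLocalRing O] [Algebra K O]
    [Field L] [Algebra K L] [Algebra O L] [IsFractionRing O L] [IsScalarTower K O L]
    [Field κ] [Algebra K κ] (r : O →ₐ[K] κ) [IsLocalHom r] (z : Pt O) (φ : F →ₐ[K] L),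
    map φ gen = map (IsScalarTower.toAlgHom K O L) z →
    (g : Cardinal) ≤ Algebra.trdeg K (fd (map r z)) + 1 → ∀ f : F,
      (∃ y : O, algebraMap O L y = φ f ∧ r y ∈ fd (map r z)) ∨
      (∃ y : O, algebraMap O L y = (φ f)⁻¹ ∧ r y ∈ fd (map r z))

attribute [instance] AVar.grp AVar.instF AVar.algF

namespace AVar

variable {K : Type u} [Field K] {g : ℕ} (A : AVar K g)

/-- functoriality as a group homomorphism -/
noncomputable def hom {R S : Type u} [CommRing R] [CommRing S] [Algebra K R] [Algebra K S]
    (φ : R →ₐ[K] S) : A.Pt R →+ A.Pt S :=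
  AddMonoidHom.mk' (A.map φ) (A.map_add φ)

@[simp] theorem hom_apply {R S : Type u} [CommRing R] [CommRing S] [Algebra K R] [Algebra K S]
    (φ : R →ₐ[K] S) (x : A.Pt R) : A.hom φ x = A.map φ x := rfl

section

variable {R S : Type u} [CommRing R] [CommRing S] [Algebra K R] [Algebra K S] (φ : R →ₐ[K] S)

@[simp] theorem map_zero : A.map φ 0 = 0 := (A.hom φ).map_zero

@[simp] theorem map_neg (x : A.Pt R) : A.map φ (-x) = -A.map φ x := (A.hom φ).map_neg x

@[simp] theorem map_sub (x y : A.Pt R) : A.map φ (x - y) = A.map φ x - A.map φ y :=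
  (A.hom φ).map_sub x y

theorem map_nsmul (n : ℕ) (x : A.Pt R) : A.map φ (n • x) = n • A.map φ x :=
  (A.hom φ).map_nsmul n x

theorem map_zsmul (n : ℤ) (x : A.Pt R) : A.map φ (n • x) = n • A.map φ x :=
  (A.hom φ).map_zsmul n x

end

variable {Ω : Type u} [Field Ω] [Algebra K Ω]

open Classical in
/-- evaluation of rational functions at a generic point -/
noncomputable def ev (z : A.Pt Ω) : A.F → Ω :=
  if h : ∃ φ : A.F →ₐ[K] Ω, A.map φ A.gen = z then h.choose else fun _ => 0

theorem ev_eq (φ : A.F →ₐ[K] Ω) : A.ev (A.map φ A.gen) = φ := by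
  have h : ∃ ψ : A.F →ₐ[K] Ω, A.map ψ A.gen = A.map φ A.gen := ⟨φ, rfl⟩
  rw [ev, dif_pos h]
  rw [A.ev_unique _ _ h.choose_spec]

/-- `z` is a generic point of `A` over the field `k`. -/
def Gen (k : IntermediateField K Ω) (z : A.Pt Ω) : Prop :=
  ∃ φ : A.F →ₐ[K] Ω, A.map φ A.gen = z ∧ k.LinearDisjoint φ.fieldRange

/-- The height of `P` with respect to `f`, for `k ≤ E ≤ Ω`, `P` defined over `E` and `a` generic
over `E`: the degree `[E(a) : k(a)(f(P - a))]` (`0` if infinite). -/
noncomputable def ht (k E : IntermediateField K Ω) (a : A.Pt Ω) (f : A.F) (P : A.Pt Ω) : ℕ :=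
  IntermediateField.relfinrank (k ⊔ A.fd a ⊔ K⟮A.ev (P - a) f⟯) (E ⊔ A.fd a)

end AVar

end Fermat.Agent.AVn
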