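import Fermat.Agent.AVn.Defs
import Fermat.Agent.AVG.Gauss

/-!
# S26 (kb 66): statements exchanged between the blocks
-/

set_option autoImplicit false

universe u

open IntermediateField

namespace Fermat.Agent.AVn

open Fermat.Agent.BaseChangeFF

/-- a second copy of a field -/
def Cp (E : Type u) : Type u := E

namespace Cp

variable (k E : Type u) [Field k] [Field E] [Algebra k E]

instance : Field (Cp E) := inferInstanceAs (Field E)
instance : Algebra k (Cp E) := inferInstanceAs (Algebra k E)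
instance (K : Type u) [Field K] [Algebra K E] [Algebra K k] [IsScalarTower K k E] :
    IsScalarTower K k (Cp E) := inferInstanceAs (IsScalarTower K k E)

/-- the identification of `E` with its copy -/
def equiv : E ≃ₐ[k] Cp E := (AlgEquiv.refl : E ≃ₐ[k] E)

end Cp

namespace AVar

variable {K : Type u} [Field K] {g : ℕ} (A : AVar K g)

/-- `f` is an even function -/
def Even (f : A.F) : Prop := A.ev (-A.gen) f = f

section

variable (k Ω : Type u) [Field k] [Field Ω] [Algebra k Ω] [Algebra K Ω] [Algebra A.F Ω]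
  [IsScalarTower K A.F Ω]

/-- the generic point given by an embedding `F → Ω` -/
noncomputable def gpt : A.Pt Ω := A.map (IsScalarTower.toAlgHom K A.F Ω) A.gen

/-- the field `k(a)(f(P - a))` -/
noncomputable def kaf (f : A.F) (P : A.Pt Ω) : IntermediateField k Ω :=
  IntermediateField.adjoin k (insert (A.ev (P - A.gpt Ω) f) (Set.range (algebraMap A.F Ω)))

/-- the height `[Ω : k(a)(f(P - a))]`, to be used for `Ω = E(a)`, i.e. `[BC K E A.F Ω]` -/
noncomputable def hgt (f : A.F) (P : A.Pt Ω) : ℕ := Module.finrank (A.kaf k Ω f P) Ω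

end

/-- Block D: identity `(*)` -/
def StarStmt : Prop :=
  ∀ (k E Ω : Type u) [Field k] [IsAlgClosed k] [Field E] [Field Ω] [Algebra K k] [Algebra k E]
    [Algebra K E] [IsScalarTower K k E] [Algebra E Ω] [Algebra K Ω] [Algebra k Ω]
    [IsScalarTower K E Ω] [IsScalarTower k E Ω] [IsScalarTower K k Ω] [Algebra A.F Ω]
    [IsScalarTower K A.F Ω] [BC K E A.F Ω]
    (u : E), Transcendental k u → ∀ [FiniteDimensional k⟮u⟯ E] [IsGalois k⟮u⟯ E] (f : A.F)
    (P Q : A.Pt E),
    ∑ s : E ≃ₐ[k⟮u⟯] E, A.hgt k Ω f (A.map (IsScalarTower.toAlgHom K E Ω)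
      (P + A.map ((s.toAlgHom.restrictScalars k).restrictScalars K) Q)) =
    Fintype.card (E ≃ₐ[k⟮u⟯] E) * (A.hgt k Ω f (A.map (IsScalarTower.toAlgHom K E Ω) P) +
      A.hgt k Ω f (A.map (IsScalarTower.toAlgHom K E Ω) Q))

/-- Block E (final form, arbitrary constant field `k`) -/
def QuadStmt : Prop :=
  ∀ (Ω : Type u) [Field Ω] [Algebra K Ω] (k E : IntermediateField K Ω) (hkE : k ≤ E),
    (∃ s : Finset Ω, E = k ⊔ IntermediateField.adjoin K (s : Set Ω)) →
    Algebra.trdeg k (IntermediateField.extendScalars hkE) = 1 →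
    ∀ (f : A.F), A.Even f → ∀ (P a : A.Pt Ω), A.fd P ≤ E → A.Gen E a → ∀ m : ℕ,
      A.ht k E a f (m • P) = m ^ 2 * A.ht k E a f P

/-- Block F (chain): `[F : [n]^* F] = n ^ (2 g)` -/
def DegStmt : Prop :=
  ∀ n : ℕ, 0 < n → ∃ β : A.F →ₐ[K] A.F, A.map β A.gen = n • A.gen ∧
    Module.finrank β.fieldRange A.F = n ^ (2 * g)

/-- Block F (count) -/
def CountStmt : Prop :=
  ∀ n : ℕ, (n : K) ≠ 0 → Nat.card {x : A.Pt K // n • x = 0} = n ^ (2 * g)

end AVar

end Fermat.Agent.AVn
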