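import Fermat.Agent.AVn.Stmts

/-!
# S26 (kb 66), block D: specialization of points along a valuation ring
-/

set_option autoImplicit false

noncomputable section

universe u

open IntermediateField

namespace Fermat.Agent.AVG.RDk

open Fermat.Agent.BaseChangeFF

section

variable {K₀ L κ : Type u} [Field K₀] [Field L] [Algebra K₀ L] [Field κ] [Algebra K₀ κ]
  (𝔯 : RDk K₀ L κ)

instance instTowerA : IsScalarTower K₀ 𝔯.A L := IsScalarTower.of_algebraMap_eq fun _ => rfl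

theorem isLocalHom_πa : IsLocalHom 𝔯.πa := ⟨fun a ha => by
  by_contra h
  exact ha.ne_zero ((𝔯.ker a).mpr h)⟩

/-- the Gauss extension as valuation ring with residue field -/
def ext (F₀ F F₁ : Type u) [Field F₀] [Algebra K₀ F₀] [Field F] [Algebra L F] [Algebra F₀ F]
    [Algebra K₀ F] [IsScalarTower K₀ L F] [IsScalarTower K₀ F₀ F]
    [Field F₁] [Algebra κ F₁] [Algebra F₀ F₁] [Algebra K₀ F₁] [IsScalarTower K₀ κ F₁]
    [IsScalarTower K₀ F₀ F₁] [BC K₀ L F₀ F] [BC K₀ κ F₀ F₁] : RDk K₀ F F₁ where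
  A := 𝔯.O F₀ F F₁
  π := 𝔯.res
  mem c := by
    rw [IsScalarTower.algebraMap_apply K₀ F₀ F]
    exact 𝔯.algebraMap_mem_O _
  π_alg c := by
    have h := 𝔯.res_algebraMap' (F := F) (F₁ := F₁) (algebraMap K₀ F₀ c)
    rw [← IsScalarTower.algebraMap_apply K₀ F₀ F₁] at h
    rw [← h]
    congr 1
    apply Subtype.ext
    exact IsScalarTower.algebraMap_apply K₀ F₀ F c
  surj := 𝔯.res_surj F F₁
  ker := 𝔯.res_ker F F₁

end

end Fermat.Agent.AVG.RDk

namespace Fermat.Agent.AVn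

open Fermat.Agent.BaseChangeFF Fermat.Agent.AVG

namespace AVar

variable {K : Type u} [Field K] {g : ℕ} (A : AVar K g)

section Red

variable {L κ : Type u} [Field L] [Algebra K L] [Field κ] [Algebra K κ] (𝔯 : RDk K L κ)

/-- the valuative criterion: a point over the fraction field extends -/
def lft (x : A.Pt L) : A.Pt 𝔯.A := (A.val_bijective (O := 𝔯.A) (L := L)).2 x |>.choose

theorem map_lft (x : A.Pt L) : A.map (IsScalarTower.toAlgHom K 𝔯.A L) (A.lft 𝔯 x) = x :=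
  ((A.val_bijective (O := 𝔯.A) (L := L)).2 x).choose_spec

theorem lft_map (x : A.Pt 𝔯.A) : A.lft 𝔯 (A.map (IsScalarTower.toAlgHom K 𝔯.A L) x) = x :=
  (A.val_bijective (O := 𝔯.A) (L := L)).1 (A.map_lft 𝔯 _)

theorem lft_add (x y : A.Pt L) : A.lft 𝔯 (x + y) = A.lft 𝔯 x + A.lft 𝔯 y :=
  (A.val_bijective (O := 𝔯.A) (L := L)).1 (by
    rw [A.map_lft, A.map_add, A.map_lft, A.map_lft])

/-- specialization of points -/
def red : A.Pt L →+ A.Pt κ := AddMonoidHom.mk' (fun x => A.map 𝔯.πa (A.lft 𝔯 x)) (by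
  intro x y
  rw [A.lft_add, A.map_add])

theorem red_apply (x : A.Pt L) : A.red 𝔯 x = A.map 𝔯.πa (A.lft 𝔯 x) := rfl

theorem red_map_val (x : A.Pt 𝔯.A) :
    A.red 𝔯 (A.map (IsScalarTower.toAlgHom K 𝔯.A L) x) = A.map 𝔯.πa x := by
  rw [red_apply, lft_map]

/-- naturality of specialization -/
theorem red_map {L₁ κ₁ : Type u} [Field L₁] [Algebra K L₁] [Field κ₁] [Algebra K κ₁]
    (𝔯₁ : RDk K L₁ κ₁) (i : L₁ →ₐ[K] L) (j : κ₁ →ₐ[K] κ)
    (h : ∀ x : 𝔯₁.A, ∃ hx : i (x : L₁) ∈ 𝔯.A, 𝔯.π ⟨i x, hx⟩ = j (𝔯₁.π x)) (x : A.Pt L₁) :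
    A.red 𝔯 (A.map i x) = A.map j (A.red 𝔯₁ x) := by
  let iA : 𝔯₁.A →ₐ[K] 𝔯.A :=
    { toFun := fun x => ⟨i x, (h x).choose⟩
      map_one' := Subtype.ext (map_one i)
      map_mul' := fun a b => Subtype.ext (map_mul i _ _)
      map_zero' := Subtype.ext (_root_.map_zero i)
      map_add' := fun a b => Subtype.ext (_root_.map_add i _ _)
      commutes' := fun c => Subtype.ext (by
        show i (algebraMap K L₁ c) = algebraMap K L c
        exact i.commutes c) }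
  have h1 : (IsScalarTower.toAlgHom K 𝔯.A L).comp iA =
      i.comp (IsScalarTower.toAlgHom K 𝔯₁.A L₁) := by
    ext a; rfl
  have h2 : 𝔯.πa.comp iA = j.comp 𝔯₁.πa := by
    ext a
    exact (h a).choose_spec
  conv_lhs => rw [← A.map_lft 𝔯₁ x, ← A.map_comp, ← h1, A.map_comp, A.red_map_val,
    ← A.map_comp, h2, A.map_comp]
  rfl

/-- naturality of specialization, for subfields of the valuation ring -/
theorem red_map_field {L₁ : Type u} [Field L₁] [Algebra K L₁]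
    (i : L₁ →ₐ[K] L) (j : L₁ →ₐ[K] κ)
    (h : ∀ x : L₁, ∃ hx : i x ∈ 𝔯.A, 𝔯.π ⟨i x, hx⟩ = j x) (x : A.Pt L₁) :
    A.red 𝔯 (A.map i x) = A.map j x := by
  let iA : L₁ →ₐ[K] 𝔯.A :=
    { toFun := fun x => ⟨i x, (h x).choose⟩
      map_one' := Subtype.ext (map_one i)
      map_mul' := fun a b => Subtype.ext (map_mul i _ _)
      map_zero' := Subtype.ext (_root_.map_zero i)
      map_add' := fun a b => Subtype.ext (_root_.map_add i _ _)
      commutes' := fun c => Subtype.ext (by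
        show i (algebraMap K L₁ c) = algebraMap K L c
        exact i.commutes c) }
  have h1 : (IsScalarTower.toAlgHom K 𝔯.A L).comp iA = i := by
    ext a; rfl
  have h2 : 𝔯.πa.comp iA = j := by
    ext a
    exact (h a).choose_spec
  conv_lhs => rw [← h1, A.map_comp, A.red_map_val, ← A.map_comp, h2]

/-- values of rational functions at points with generic specialization -/
theorem ev_red (z : A.Pt L) (hz : Algebra.trdeg K (A.fd (A.red 𝔯 z)) = g) (f : A.F) :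
    ∃ h : A.ev z f ∈ 𝔯.A, 𝔯.π ⟨A.ev z f, h⟩ = A.ev (A.red 𝔯 z) f := by
  have := 𝔯.isLocalHom_πa
  obtain ⟨φ, hφ⟩ := A.spec (O := 𝔯.A) 𝔯.πa (A.lft 𝔯 z) hz
  have h1 : A.map ((IsScalarTower.toAlgHom K 𝔯.A L).comp φ) A.gen = z := by
    rw [A.map_comp, hφ, A.map_lft]
  have h2 : A.map (𝔯.πa.comp φ) A.gen = A.red 𝔯 z := by
    rw [A.map_comp, hφ]; rfl
  have h3 : A.ev z = ((IsScalarTower.toAlgHom K 𝔯.A L).comp φ) := by
    rw [← A.ev_eq, h1]
  have h4 : A.ev (A.red 𝔯 z) = (𝔯.πa.comp φ) := by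
    rw [← A.ev_eq, h2]
  have h5 : A.ev z f = ((φ f : 𝔯.A) : L) := by rw [h3]; rfl
  refine ⟨by rw [h5]; exact (φ f).2, ?_⟩
  rw [h4]
  show 𝔯.π _ = 𝔯.π (φ f)
  congr 1
  exact Subtype.ext h5

end Red

end AVar

end Fermat.Agent.AVn
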