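import Fermat.Agent.FunField.DegreeFormula

/-!
# The degree formula for one-variable function fields, in terms of valuation subrings

`∑ e_i f_i = [M : κ(x)]`, the sum over the complete (finite) list of the valuation rings of `M`
containing `κ` at which `x` has a zero.  Arbitrary constant field `κ`.
-/

set_option autoImplicit false

noncomputable section

open Module IntermediateField AlgebraicCurve Fermat.Agent.FunField

namespace Fermat.Agent.AVn

section B1

variable {κ M : Type*} [Field κ] [Field M] [Algebra κ M]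

/-- the place attached to a discrete valuation subring containing the constants -/
def b1Place (v : ValuationSubring M) [IsDiscreteValuationRing v]
    (hκ : ∀ c, algebraMap κ M c ∈ v) : Place κ M where
  toValuationSubring := v
  algebraMap_mem' := hκ
  ne_top' := by
    rintro rfl
    obtain ⟨ϖ, hϖ⟩ := IsDiscreteValuationRing.exists_irreducible (⊤ : ValuationSubring M)
    apply hϖ.not_isUnit
    have h0 : (ϖ : M) ≠ 0 := fun h => hϖ.ne_zero (Subtype.ext h)
    exact IsUnit.of_mul_eq_one ⟨(ϖ : M)⁻¹, ValuationSubring.mem_top _⟩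
      (Subtype.ext (mul_inv_cancel₀ h0))
  isPrincipalIdealRing' := inferInstance

@[simp] theorem b1Place_toValuationSubring (v : ValuationSubring M) [IsDiscreteValuationRing v]
    (hκ : ∀ c, algebraMap κ M c ∈ v) : (b1Place v hκ).toValuationSubring = v := rfl

/-- the order of `x` at a place, from `(x) = m ^ e` -/
theorem b1_ord_eq (w : Place κ M) {x : M} (hx0 : x ≠ 0) (hxv : x ∈ w.toValuationSubring) {e : ℕ}
    (he : Ideal.span {(⟨x, hxv⟩ : w.toValuationSubring)} =
      IsLocalRing.maximalIdeal w.toValuationSubring ^ e) : w.ord x = e := by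
  obtain ⟨π, hπ⟩ := IsDiscreteValuationRing.exists_irreducible w.toValuationSubring
  have h1 : w.ord (π : M) = 1 := w.ord_coe_irreducible hπ
  rw [hπ.maximalIdeal_eq, Ideal.span_singleton_pow, Ideal.span_singleton_eq_span_singleton] at he
  obtain ⟨u, hu⟩ := he
  have hu' : x * ((u : w.toValuationSubring) : M) = (π : M) ^ e := by
    have := congrArg Subtype.val hu
    simpa using this
  have hu0 : ((u : w.toValuationSubring) : M) ≠ 0 := by
    intro h
    exact u.ne_zero (Subtype.ext h)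
  have h2 := congrArg w.ord hu'
  rw [w.ord_mul hx0 hu0, w.ord_coe_unit, add_zero, PlaceLemmas.ord_pow, h1, mul_one] at h2
  exact h2

/-- the residue field of a place through a surjection onto a field -/
def b1ResidueEquiv (w : Place κ M) {k : Type*} [Field k] [Algebra κ k]
    (ρ : w.toValuationSubring →+* k) (hρs : Function.Surjective ρ)
    (hρκ : ∀ c, ρ (algebraMap κ w.toValuationSubring c) = algebraMap κ k c) :
    w.ResidueField ≃ₐ[κ] k :=
  have hker : IsLocalRing.maximalIdeal w.toValuationSubring = RingHom.ker ρ := by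
    have : (RingHom.ker ρ).IsMaximal := RingHom.ker_isMaximal_of_surjective ρ hρs
    exact (IsLocalRing.eq_maximalIdeal this).symm
  AlgEquiv.ofRingEquiv
    (f := (Ideal.quotEquivOfEq hker).trans (RingHom.quotientKerEquivOfSurjective hρs))
    (fun c => by
      rw [← hρκ c]
      rfl)

/-- **Degree formula** for the zeros of `x` (arbitrary constant field `κ`). -/
theorem sum_ef {x : M} (hx : Transcendental κ x) [FiniteDimensional κ⟮x⟯ M] {I : Type*} [Fintype I]
    (v : I → ValuationSubring M) (hinj : Function.Injective v)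
    [∀ i, IsDiscreteValuationRing (v i)] (e : I → ℕ)
    (k : I → Type*) [∀ i, Field (k i)] [∀ i, Algebra κ (k i)] (ρ : ∀ i, v i →+* k i)
    (hρs : ∀ i, Function.Surjective (ρ i)) (hκ : ∀ i c, algebraMap κ M c ∈ v i)
    (hρκ : ∀ i c, ρ i ⟨algebraMap κ M c, hκ i c⟩ = algebraMap κ (k i) c)
    (hxv : ∀ i, x ∈ v i)
    (he : ∀ i, Ideal.span {(⟨x, hxv i⟩ : v i)} = IsLocalRing.maximalIdeal (v i) ^ e i)
    (he0 : ∀ i, e i ≠ 0)
    (hall : ∀ w : ValuationSubring M, (∀ c, algebraMap κ M c ∈ w) → x ∈ w → x⁻¹ ∉ w →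
      ∃ i, w = v i) :
    (∀ i, FiniteDimensional κ (k i)) ∧ ∑ i, e i * finrank κ (k i) = finrank κ⟮x⟯ M := by
  classical
  have hx0 : x ≠ 0 := by
    rintro rfl
    exact hx (isAlgebraic_zero)
  have hFF : IsFF κ M := ⟨⟨x, hx, inferInstance⟩⟩
  let w : I → Place κ M := fun i => b1Place (v i) (hκ i)
  have hwinj : Function.Injective w := fun i j h => hinj (congrArg Place.toValuationSubring h)
  let E : ∀ i, (w i).ResidueField ≃ₐ[κ] k i := fun i =>
    b1ResidueEquiv (w i) (ρ i) (hρs i) (fun c => hρκ i c)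
  have hord : ∀ i, (w i).ord x = e i := fun i => b1_ord_eq (w i) hx0 (hxv i) (he i)
  have hfin : ∀ i, FiniteDimensional κ (k i) := fun i =>
    Module.Finite.equiv (E i).toLinearEquiv
  refine ⟨hfin, ?_⟩
  have hdeg : ∀ i, (w i).deg = finrank κ (k i) := fun i => (E i).toLinearEquiv.finrank_eq
  have h1 := degree_zeroDiv (K := κ) hx
  rw [degree_eq_sum] at h1
  have hsupp : (zeroDiv x : Divisor κ M).support = Finset.univ.map ⟨w, hwinj⟩ := by
    ext p
    rw [Finsupp.mem_support_iff, zeroDiv_apply, Finset.mem_map]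
    constructor
    · intro hp
      have hpos : 0 < p.ord x := by
        by_contra hle
        push Not at hle
        exact hp (max_eq_right hle)
      have hxp : x ∈ p.toValuationSubring := (PlaceLemmas.mem_iff_ord_nonneg p hx0).2 hpos.le
      have hxp' : x⁻¹ ∉ p.toValuationSubring := by
        rw [PlaceLemmas.mem_iff_ord_nonneg p (inv_ne_zero hx0), p.ord_inv]
        omega
      obtain ⟨i, hi⟩ := hall _ p.algebraMap_mem' hxp hxp'
      exact ⟨i, Finset.mem_univ i, Place.ext hi.symm⟩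
    · rintro ⟨i, -, rfl⟩
      have := hord i
      have h0 := he0 i
      show max ((w i).ord x) 0 ≠ 0
      omega
  rw [Finsupp.sum, hsupp, Finset.sum_map] at h1
  have h2 : ∀ i ∈ (Finset.univ : Finset I),
      (zeroDiv x : Divisor κ M) ((⟨w, hwinj⟩ : I ↪ Place κ M) i) *
        (((⟨w, hwinj⟩ : I ↪ Place κ M) i).deg : ℤ) = ((e i * finrank κ (k i) : ℕ) : ℤ) := by
    intro i _
    show (zeroDiv x : Divisor κ M) (w i) * ((w i).deg : ℤ) = _
    rw [zeroDiv_apply, hord i, hdeg i, Nat.cast_mul, max_eq_left (Int.natCast_nonneg _)]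
  rw [Finset.sum_congr rfl h2, ← Nat.cast_sum] at h1
  exact_mod_cast h1

/-- **Degree formula** for the poles of `x` (arbitrary constant field `κ`). -/
theorem sum_ef_inv {x : M} (hx : Transcendental κ x) [FiniteDimensional κ⟮x⟯ M] {I : Type*}
    [Fintype I] (v : I → ValuationSubring M) (hinj : Function.Injective v)
    [∀ i, IsDiscreteValuationRing (v i)] (e : I → ℕ)
    (k : I → Type*) [∀ i, Field (k i)] [∀ i, Algebra κ (k i)] (ρ : ∀ i, v i →+* k i)
    (hρs : ∀ i, Function.Surjective (ρ i)) (hκ : ∀ i c, algebraMap κ M c ∈ v i)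
    (hρκ : ∀ i c, ρ i ⟨algebraMap κ M c, hκ i c⟩ = algebraMap κ (k i) c)
    (hxv : ∀ i, x⁻¹ ∈ v i)
    (he : ∀ i, Ideal.span {(⟨x⁻¹, hxv i⟩ : v i)} = IsLocalRing.maximalIdeal (v i) ^ e i)
    (he0 : ∀ i, e i ≠ 0)
    (hall : ∀ w : ValuationSubring M, (∀ c, algebraMap κ M c ∈ w) → x ∉ w →
      ∃ i, w = v i) :
    (∀ i, FiniteDimensional κ (k i)) ∧ ∑ i, e i * finrank κ (k i) = finrank κ⟮x⟯ M := by
  have hx' : Transcendental κ x⁻¹ := fun ha => hx (by simpa using ha.inv)
  have heq : κ⟮x⁻¹⟯ = κ⟮x⟯ := adjoin_inv_eq x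
  have hFF : IsFF κ M := ⟨⟨x, hx, inferInstance⟩⟩
  have : FiniteDimensional κ⟮x⁻¹⟯ M := finiteDimensional_adjoin_of_isFF (K := κ) hx'
  have h := sum_ef hx' v hinj e k ρ hρs hκ hρκ hxv he he0 (fun w h1 _ h3 => hall w h1
    (by rwa [inv_inv] at h3))
  rwa [finrank_adjoin_inv] at h

/-- Equality of the degrees of the zeros and of the poles of `x` (arbitrary constant field). -/
theorem sum_ef_eq_sum_ef {x : M} (hx : Transcendental κ x) [FiniteDimensional κ⟮x⟯ M]
    {I : Type*} [Fintype I] (v : I → ValuationSubring M) (hinj : Function.Injective v)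
    [∀ i, IsDiscreteValuationRing (v i)] (e : I → ℕ)
    (k : I → Type*) [∀ i, Field (k i)] [∀ i, Algebra κ (k i)] (ρ : ∀ i, v i →+* k i)
    (hρs : ∀ i, Function.Surjective (ρ i)) (hκ : ∀ i c, algebraMap κ M c ∈ v i)
    (hρκ : ∀ i c, ρ i ⟨algebraMap κ M c, hκ i c⟩ = algebraMap κ (k i) c)
    (hxv : ∀ i, x ∈ v i)
    (he : ∀ i, Ideal.span {(⟨x, hxv i⟩ : v i)} = IsLocalRing.maximalIdeal (v i) ^ e i)
    (he0 : ∀ i, e i ≠ 0)
    (hall : ∀ w : ValuationSubring M, (∀ c, algebraMap κ M c ∈ w) → x ∈ w → x⁻¹ ∉ w →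
      ∃ i, w = v i)
    {I' : Type*} [Fintype I'] (v' : I' → ValuationSubring M) (hinj' : Function.Injective v')
    [∀ i, IsDiscreteValuationRing (v' i)] (e' : I' → ℕ)
    (k' : I' → Type*) [∀ i, Field (k' i)] [∀ i, Algebra κ (k' i)] (ρ' : ∀ i, v' i →+* k' i)
    (hρs' : ∀ i, Function.Surjective (ρ' i)) (hκ' : ∀ i c, algebraMap κ M c ∈ v' i)
    (hρκ' : ∀ i c, ρ' i ⟨algebraMap κ M c, hκ' i c⟩ = algebraMap κ (k' i) c)
    (hxv' : ∀ i, x⁻¹ ∈ v' i)
    (he' : ∀ i, Ideal.span {(⟨x⁻¹, hxv' i⟩ : v' i)} = IsLocalRing.maximalIdeal (v' i) ^ e' i)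
    (he0' : ∀ i, e' i ≠ 0)
    (hall' : ∀ w : ValuationSubring M, (∀ c, algebraMap κ M c ∈ w) → x ∉ w → ∃ i, w = v' i) :
    ∑ i, e i * finrank κ (k i) = ∑ i, e' i * finrank κ (k' i) :=
  (sum_ef hx v hinj e k ρ hρs hκ hρκ hxv he he0 hall).2.trans
    (sum_ef_inv hx v' hinj' e' k' ρ' hρs' hκ' hρκ' hxv' he' he0' hall').2.symm

end B1

end Fermat.Agent.AVn
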