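import Mathlib

/-!
# Quadratic functions from averages

If a finite group `G` acts on `V` and `h : V → ℝ` is nonnegative, even, `G`-invariant with
`∑ s, h (v + s • w) = |G| * (h v + h w)`, then `h (n • v) = n ^ 2 * h v`.
-/

set_option autoImplicit false

noncomputable section

open Finset Filter Topology

namespace Fermat.Agent.AVQuad

section Pol

variable {V : Type*} [AddCommGroup V]

/-- difference operator -/
def dif (d : V) (f : V → ℝ) : V → ℝ := fun v => f (v + d) - f v

/-- all `m`-fold differences vanish -/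
def Pol : ℕ → (V → ℝ) → Prop
  | 0, f => ∀ v, f v = 0
  | m + 1, f => ∀ d, Pol m (dif d f)

theorem dif_comm (d d' : V) (f : V → ℝ) : dif d (dif d' f) = dif d' (dif d f) := by
  funext v
  simp only [dif]
  rw [add_right_comm v d d']
  ring

theorem Pol.dif {m : ℕ} {f : V → ℝ} (h : Pol m f) (d : V) : Pol m (dif d f) := by
  induction m generalizing f with
  | zero =>
    intro v
    simp only [AVQuad.dif]
    rw [h, h, sub_zero]
  | succ m ih =>
    intro d'
    rw [dif_comm]
    exact ih (h d')

theorem Pol.dif_iter {m : ℕ} {f : V → ℝ} (h : Pol m f) (d : V) (a : ℕ) :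
    Pol m ((AVQuad.dif d)^[a] f) := by
  induction a with
  | zero => exact h
  | succ a ih =>
    rw [Function.iterate_succ_apply']
    exact ih.dif d

/-- **Fréchet's elimination** -/
theorem frechet {G : Type*} [Group G] [DistribMulAction G V] (m : ℕ) :
    ∀ (l : List (G × (V → ℝ))) (g : V → ℝ), l.length = m →
      (∀ v w, (l.map (fun p => p.2 (v + p.1 • w))).sum = g v) → Pol m g := by
  induction m with
  | zero =>
    intro l g hl h v
    rw [List.length_eq_zero_iff] at hl
    subst hl
    simpa using (h v 0).symm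
  | succ m ih =>
    intro l g hl h d
    obtain ⟨⟨s, g₁⟩, l, rfl⟩ := List.exists_cons_of_length_eq_add_one hl
    refine ih (l.map (fun p => (p.1, dif (p.1 • (-(s⁻¹ • d)) + d) p.2))) (dif d g) ?_ ?_
    · rw [List.length_map]
      simpa using hl
    · intro v w
      have h1 := h (v + d) (w + -(s⁻¹ • d))
      have h2 := h v w
      simp only [List.map_cons, List.sum_cons] at h1 h2
      have h3 : v + d + s • (w + -(s⁻¹ • d)) = v + s • w := by
        rw [smul_add, smul_neg, smul_inv_smul]
        abel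
      rw [h3] at h1
      rw [List.map_map]
      have h4 : ((fun p : G × (V → ℝ) => p.2 (v + p.1 • w)) ∘
          fun p : G × (V → ℝ) => (p.1, dif (p.1 • (-(s⁻¹ • d)) + d) p.2)) =
          fun p : G × (V → ℝ) =>
            p.2 (v + d + p.1 • (w + -(s⁻¹ • d))) - p.2 (v + p.1 • w) := by
        funext p
        simp only [Function.comp, dif]
        have h5 : v + p.1 • w + (p.1 • (-(s⁻¹ • d)) + d) = v + d + p.1 • (w + -(s⁻¹ • d)) := by
          rw [smul_add]
          abel
        rw [h5]
      have h6 : ∀ (l : List (G × (V → ℝ))) (a b : G × (V → ℝ) → ℝ),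
          (l.map (fun p => a p - b p)).sum = (l.map a).sum - (l.map b).sum := by
        intro l a b
        induction l with
        | nil => simp
        | cons x l ih =>
          simp only [List.map_cons, List.sum_cons, ih]
          ring
      rw [h4, h6]
      simp only [dif]
      linarith

/-- binomial polynomials -/
def bin : ℕ → Polynomial ℝ
  | 0 => 1
  | a + 1 => Polynomial.C ((a + 1 : ℝ)⁻¹) * (Polynomial.X - Polynomial.C (a : ℝ)) * bin a

theorem bin_zero (x : ℝ) : (bin 0).eval x = 1 := by simp [bin]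

theorem bin_succ (a : ℕ) (x : ℝ) :
    (bin (a + 1)).eval x = (a + 1 : ℝ)⁻¹ * (x - a) * (bin a).eval x := by
  simp [bin]

theorem bin_succ_zero (a : ℕ) : (bin (a + 1)).eval 0 = 0 := by
  induction a with
  | zero => rw [bin_succ]; simp
  | succ a ih => rw [bin_succ, ih, mul_zero]

theorem bin_dif (a : ℕ) (x : ℝ) :
    (bin (a + 1)).eval (x + 1) - (bin (a + 1)).eval x = (bin a).eval x := by
  induction a with
  | zero =>
    rw [bin_succ, bin_succ, bin_zero, bin_zero]
    push_cast
    ring
  | succ a ih =>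
    have h1 : (bin (a + 1)).eval (x + 1) = (bin (a + 1)).eval x + (bin a).eval x := by
      linarith
    rw [bin_succ, bin_succ (a + 1) x, h1]
    have h2 : ((a : ℝ) + 1) * (bin (a + 1)).eval x = (x - a) * (bin a).eval x := by
      rw [bin_succ]
      have : (a : ℝ) + 1 ≠ 0 := by positivity
      field_simp
    have h3 : (a : ℝ) + 1 + 1 ≠ 0 := by positivity
    push_cast
    field_simp
    linear_combination -h2

theorem const_of_succ {u : ℤ → ℝ} (h : ∀ n, u (n + 1) = u n) (n : ℤ) : u n = u 0 := by
  induction n using Int.induction_on with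
  | zero => rfl
  | succ n ih => rw [h, ih]
  | pred n ih =>
    rw [← ih, ← h (-(n : ℤ) - 1)]
    congr 1
    ring

/-- Newton's formula -/
theorem newton {m : ℕ} {f : V → ℝ} (h : Pol m f) (x e : V) (n : ℤ) :
    f (x + n • e) = ∑ a ∈ range m, (bin a).eval (n : ℝ) * ((dif e)^[a] f) x := by
  induction m generalizing f n with
  | zero => rw [range_zero, sum_empty, h]
  | succ m ih =>
    have h1 : ∀ n : ℤ, f (x + (n + 1) • e) - f (x + n • e) =
        ∑ a ∈ range (m + 1), (bin a).eval ((n + 1 : ℤ) : ℝ) * ((dif e)^[a] f) x -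
        ∑ a ∈ range (m + 1), (bin a).eval (n : ℝ) * ((dif e)^[a] f) x := by
      intro n
      have h2 := ih (h e) n
      have h3 : f (x + (n + 1) • e) - f (x + n • e) = dif e f (x + n • e) := by
        simp only [dif]
        rw [add_smul, one_smul, add_assoc]
      rw [h3, h2, ← sum_sub_distrib, sum_range_succ']
      rw [bin_zero, bin_zero, sub_self, add_zero]
      refine sum_congr rfl fun a _ => ?_
      rw [← sub_mul, Function.iterate_succ_apply]
      congr 1
      push_cast
      exact (bin_dif a n).symm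
    have h4 := const_of_succ (u := fun n : ℤ => f (x + n • e) -
      ∑ a ∈ range (m + 1), (bin a).eval (n : ℝ) * ((dif e)^[a] f) x) (fun n => by
        have := h1 n
        show f (x + (n + 1) • e) - _ = _
        linarith) n
    have h5 : ∑ a ∈ range (m + 1), (bin a).eval (((0 : ℤ)) : ℝ) * ((dif e)^[a] f) x = f x := by
      rw [sum_range_succ', Int.cast_zero, bin_zero, one_mul, Function.iterate_zero, id]
      have : ∀ a ∈ range m, (bin (a + 1)).eval (0 : ℝ) * ((dif e)^[a + 1] f) x = 0 := by
        intro a _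
        rw [bin_succ_zero, zero_mul]
      rw [sum_congr rfl this, sum_const_zero, zero_add]
    have h6 : f (x + n • e) - ∑ a ∈ range (m + 1), (bin a).eval (n : ℝ) * ((dif e)^[a] f) x =
        f (x + (0 : ℤ) • e) - ∑ a ∈ range (m + 1), (bin a).eval (((0 : ℤ)) : ℝ) *
          ((dif e)^[a] f) x := h4
    rw [h5, zero_smul, add_zero, sub_self] at h6
    linarith

/-- functions with vanishing differences are polynomials on finitely generated groups -/
theorem exists_mv {ι : Type*} [DecidableEq ι] (e : ι → V) (m : ℕ) (S : Finset ι) :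
    ∀ f : V → ℝ, Pol m f → ∃ p : MvPolynomial ι ℝ, ∀ n : ι → ℤ,
      f (∑ i ∈ S, n i • e i) = MvPolynomial.eval (fun i => (n i : ℝ)) p := by
  induction S using Finset.induction_on with
  | empty => exact fun f _ => ⟨MvPolynomial.C (f 0), fun n => by simp⟩
  | insert i S hi ih =>
    intro f hf
    have h1 : ∀ a : ℕ, ∃ p : MvPolynomial ι ℝ, ∀ n : ι → ℤ,
        ((dif (e i))^[a] f) (∑ i ∈ S, n i • e i) = MvPolynomial.eval (fun i => (n i : ℝ)) p :=
      fun a => ih _ (hf.dif_iter (e i) a)
    choose p hp using h1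
    refine ⟨∑ a ∈ range m, Polynomial.aeval (MvPolynomial.X i) (bin a) * p a, fun n => ?_⟩
    rw [sum_insert hi, add_comm, newton hf, map_sum]
    refine sum_congr rfl fun a _ => ?_
    rw [map_mul, hp]
    congr 1
    have h2 : MvPolynomial.eval (fun i => (n i : ℝ))
        (Polynomial.aeval (MvPolynomial.X i : MvPolynomial ι ℝ) (bin a)) =
        Polynomial.eval (n i : ℝ) (bin a) := by
      rw [Polynomial.aeval_def, Polynomial.hom_eval₂, MvPolynomial.eval_X]
      have : (MvPolynomial.eval (fun i => (n i : ℝ))).comp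
          (algebraMap ℝ (MvPolynomial ι ℝ)) = RingHom.id ℝ := by
        ext r
        simp
      rw [this]
      rfl
    exact h2.symm

end Pol

section Form

/-- **Nonnegative forms of degree `> 2` satisfying the average identity vanish.** -/
theorem form_zero {E : Type*} [NormedAddCommGroup E] [InnerProductSpace ℝ E]
    [FiniteDimensional ℝ E] {G : Type*} [Fintype G] [Nonempty G] (act : G → (E ≃ₗᵢ[ℝ] E))
    (F : E → ℝ) (hc : Continuous F) (hnn : ∀ x, 0 ≤ F x) {l : ℕ} (hl : 2 ≤ l)
    (hom : ∀ (t : ℝ) x, F (t • x) = t ^ (2 * l) * F x) (hG : ∀ s x, F (act s x) = F x)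
    (hsum : ∀ x y, ∑ s, F (x + act s y) = Fintype.card G * (F x + F y)) : ∀ x, F x = 0 := by
  have hneg : ∀ x, F (-x) = F x := by
    intro x
    have := hom (-1) x
    rw [neg_one_smul, pow_mul, neg_one_sq, one_pow, one_mul] at this
    exact this
  let W : Submodule ℝ E :=
    { carrier := {x | F x = 0}
      zero_mem' := by
        have := hom 0 0
        rw [zero_smul, zero_pow (by omega), zero_mul] at this
        exact this
      add_mem' := by
        intro x y hx hy
        obtain ⟨s₀⟩ := ‹Nonempty G›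
        have h1 := hsum x ((act s₀).symm y)
        have h2 : F ((act s₀).symm y) = 0 := by
          rw [← hG s₀, LinearIsometryEquiv.apply_symm_apply]
          exact hy
        rw [h2, show F x = 0 from hx, add_zero, mul_zero] at h1
        have h3 := (sum_eq_zero_iff_of_nonneg (fun s _ => hnn _)).mp h1 s₀ (mem_univ _)
        rw [LinearIsometryEquiv.apply_symm_apply] at h3
        exact h3
      smul_mem' := by
        intro t x hx
        show F (t • x) = 0
        rw [hom, show F x = 0 from hx, mul_zero] }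
  have hW : ∀ x, x ∈ W ↔ F x = 0 := fun x => Iff.rfl
  by_contra hcon
  push Not at hcon
  obtain ⟨x₀, hx₀⟩ := hcon
  have hU : Wᗮ ≠ ⊥ := by
    intro h
    rw [Submodule.orthogonal_eq_bot_iff] at h
    apply hx₀
    rw [← hW, h]
    trivial
  have hstab : ∀ s, ∀ u ∈ Wᗮ, act s u ∈ Wᗮ := by
    intro s u hu
    rw [Submodule.mem_orthogonal] at hu ⊢
    intro w hw
    have h1 : (act s).symm w ∈ W := by
      rw [hW, ← hG s, LinearIsometryEquiv.apply_symm_apply]
      exact hw
    have h2 := hu _ h1
    rw [← (act s).inner_map_map, LinearIsometryEquiv.apply_symm_apply] at h2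
    exact h2
  -- the minimum on the sphere
  let K : Set E := (Wᗮ : Set E) ∩ Metric.sphere 0 1
  have hK : IsCompact K := (isCompact_sphere 0 1).inter_left (Submodule.isClosed_orthogonal W)
  obtain ⟨u₀, hu₀, hu₀n⟩ := Submodule.exists_mem_ne_zero_of_ne_bot hU
  have hKne : K.Nonempty := by
    refine ⟨‖u₀‖⁻¹ • u₀, Wᗮ.smul_mem _ hu₀, ?_⟩
    rw [mem_sphere_zero_iff_norm, norm_smul, norm_inv, norm_norm,
      inv_mul_cancel₀ (norm_ne_zero_iff.mpr hu₀n)]
  obtain ⟨v, ⟨hvU, hv1⟩, hmin⟩ := hK.exists_isMinOn hKne hc.continuousOn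
  rw [mem_sphere_zero_iff_norm] at hv1
  have hv0 : v ≠ 0 := by
    rintro rfl
    rw [norm_zero] at hv1
    exact zero_ne_one hv1
  have hm : 0 < F v := by
    refine lt_of_le_of_ne (hnn v) fun h => hv0 ?_
    have h1 : v ∈ W := (hW v).mpr h.symm
    exact inner_self_eq_zero.mp ((Submodule.mem_orthogonal _ _).mp hvU v h1 : inner ℝ v v = 0)
  have hlow : ∀ x ∈ Wᗮ, F v * (‖x‖ ^ 2) ^ l ≤ F x := by
    intro x hx
    rcases eq_or_ne x 0 with rfl | hx0
    · rw [norm_zero]
      have : ((0 : ℝ) ^ 2) ^ l = 0 := by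
        rw [zero_pow two_ne_zero, zero_pow (by omega)]
      rw [this, mul_zero]
      exact hnn 0
    · have hn : ‖x‖ ≠ 0 := norm_ne_zero_iff.mpr hx0
      have h1 : F v ≤ F (‖x‖⁻¹ • x) := hmin ⟨Wᗮ.smul_mem _ hx, by
        rw [mem_sphere_zero_iff_norm, norm_smul, norm_inv, norm_norm, inv_mul_cancel₀ hn]⟩
      have h2 : F x = ‖x‖ ^ (2 * l) * F (‖x‖⁻¹ • x) := by
        rw [← hom, smul_smul, mul_inv_cancel₀ hn, one_smul]
      rw [h2, ← pow_mul, mul_comm]
      exact mul_le_mul_of_nonneg_left h1 (by positivity)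
  have hsv : ∀ s, ‖v + act s v‖ ^ 2 + ‖v - act s v‖ ^ 2 = 4 := by
    intro s
    have := parallelogram_law_with_norm ℝ v (act s v)
    rw [LinearIsometryEquiv.norm_map, hv1] at this
    nlinarith
  have h1 := hsum v v
  have h2 := hsum v (-v)
  rw [hneg] at h2
  have h3 : ∑ s, (F (v + act s v) + F (v - act s v)) = 4 * (Fintype.card G * F v) := by
    rw [sum_add_distrib, h1]
    have : ∑ s, F (v - act s v) = ∑ s, F (v + act s (-v)) := by
      refine sum_congr rfl fun s _ => ?_
      rw [map_neg, sub_eq_add_neg]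
    rw [this, h2]
    ring
  have h4 : ∀ s, F v * 4 ^ l ≤ 2 ^ (l - 1) * (F (v + act s v) + F (v - act s v)) := by
    intro s
    have h5 := add_pow_le (sq_nonneg ‖v + act s v‖) (sq_nonneg ‖v - act s v‖) l
    rw [hsv] at h5
    have h6 := hlow _ (Wᗮ.add_mem hvU (hstab s v hvU))
    have h7 := hlow _ (Wᗮ.sub_mem hvU (hstab s v hvU))
    calc F v * 4 ^ l ≤ F v * (2 ^ (l - 1) * ((‖v + act s v‖ ^ 2) ^ l +
        (‖v - act s v‖ ^ 2) ^ l)) := mul_le_mul_of_nonneg_left h5 hm.le
      _ = 2 ^ (l - 1) * (F v * (‖v + act s v‖ ^ 2) ^ l + F v * (‖v - act s v‖ ^ 2) ^ l) := by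
        ring
      _ ≤ _ := mul_le_mul_of_nonneg_left (add_le_add h6 h7) (by positivity)
  have h5 : (Fintype.card G : ℝ) * (F v * 4 ^ l) ≤ 2 ^ (l - 1) * (4 * (Fintype.card G * F v)) := by
    rw [← h3, mul_sum, ← nsmul_eq_mul, ← card_univ, ← sum_const]
    exact sum_le_sum fun s _ => h4 s
  have hcard : (0 : ℝ) < Fintype.card G := by exact_mod_cast Fintype.card_pos
  have h6 : (4 : ℝ) ^ l ≤ 2 ^ (l - 1) * 4 := by
    have : (Fintype.card G * F v) * 4 ^ l ≤ (Fintype.card G * F v) * (2 ^ (l - 1) * 4) := by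
      linarith
    exact le_of_mul_le_mul_left this (by positivity)
  obtain ⟨j, rfl⟩ : ∃ j, l = j + 2 := ⟨l - 2, by omega⟩
  have h7 : (4 : ℝ) ^ (j + 2) = 2 ^ (j + 2 - 1) * 4 * 2 ^ (j + 1) := by
    have : (4 : ℝ) = 2 ^ 2 := by norm_num
    rw [this, ← pow_mul, ← pow_add, ← pow_add]
    congr 1
    omega
  have h8 : (1 : ℝ) < 2 ^ (j + 1) := one_lt_pow₀ (by norm_num) (by omega)
  rw [h7] at h6
  have h9 : (0 : ℝ) < 2 ^ (j + 2 - 1) * 4 := by positivity
  nlinarith

end Form

section Eval

variable {σ : Type*}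

theorem eval_smul_hom {φ : MvPolynomial σ ℝ} {k : ℕ} (hφ : φ.IsHomogeneous k) (t : ℝ)
    (x : σ → ℝ) : MvPolynomial.eval (fun i => t * x i) φ = t ^ k * MvPolynomial.eval x φ := by
  rw [MvPolynomial.eval_eq, MvPolynomial.eval_eq, mul_sum]
  refine sum_congr rfl fun d hd => ?_
  have h1 : d.degree = k := by
    by_contra h
    exact (MvPolynomial.mem_support_iff.mp hd) (hφ.coeff_eq_zero h)
  have h2 : ∏ i ∈ d.support, (t * x i) ^ d i = t ^ k * ∏ i ∈ d.support, x i ^ d i := by
    have h1' : ∑ i ∈ d.support, d i = k := h1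
    rw [← h1', ← prod_pow_eq_pow_sum, ← prod_mul_distrib]
    exact prod_congr rfl fun i _ => mul_pow _ _ _
  rw [h2]
  ring

/-- the expansion in homogeneous components -/
theorem eval_smul_sum (p : MvPolynomial σ ℝ) (t : ℝ) (x : σ → ℝ) :
    MvPolynomial.eval (fun i => t * x i) p =
      ∑ i ∈ range (p.totalDegree + 1),
        t ^ i * MvPolynomial.eval x (MvPolynomial.homogeneousComponent i p) := by
  conv_lhs => rw [← MvPolynomial.sum_homogeneousComponent p]
  rw [map_sum]
  exact sum_congr rfl fun i _ =>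
    eval_smul_hom (MvPolynomial.homogeneousComponent_isHomogeneous i p) t x

/-- the top form is a limit -/
theorem tendsto_top (p : MvPolynomial σ ℝ) (x : σ → ℝ) :
    Tendsto (fun j : ℕ => MvPolynomial.eval (fun i => (j : ℝ) * x i) p / (j : ℝ) ^ p.totalDegree)
      atTop (𝓝 (MvPolynomial.eval x (MvPolynomial.homogeneousComponent p.totalDegree p))) := by
  set k := p.totalDegree with hk
  have h1 : ∀ i ∈ range (k + 1), Tendsto (fun j : ℕ => (j : ℝ) ^ i / (j : ℝ) ^ k *
      MvPolynomial.eval x (MvPolynomial.homogeneousComponent i p)) atTop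
      (𝓝 (if i = k then MvPolynomial.eval x (MvPolynomial.homogeneousComponent i p) else 0)) := by
    intro i hi
    have hik : i ≤ k := Nat.lt_succ_iff.mp (mem_range.mp hi)
    split_ifs with h
    · rw [h]
      refine Tendsto.congr' ?_ tendsto_const_nhds
      filter_upwards [eventually_ge_atTop 1] with j hj
      have : (j : ℝ) ^ k ≠ 0 := by positivity
      rw [div_self this, one_mul]
    · have h2 : Tendsto (fun j : ℕ => (j : ℝ) ^ i / (j : ℝ) ^ k) atTop (𝓝 0) :=
        (tendsto_pow_div_pow_atTop_zero (𝕜 := ℝ) (lt_of_le_of_ne hik h)).comp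
          tendsto_natCast_atTop_atTop
      simpa using h2.mul_const (MvPolynomial.eval x (MvPolynomial.homogeneousComponent i p))
  have h2 := tendsto_finsetSum (range (k + 1)) h1
  rw [sum_ite_eq' (range (k + 1)) k, if_pos (mem_range.mpr (Nat.lt_succ_self k))] at h2
  refine h2.congr fun j => ?_
  rw [eval_smul_sum, ← hk, sum_div]
  exact sum_congr rfl fun i _ => by ring

end Eval

section Main

variable {V : Type*} [AddCommGroup V] {G : Type*} [Group G] [Fintype G] [DistribMulAction G V]

theorem pol_of_sum {h : V → ℝ}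
    (hsum : ∀ v w, ∑ s : G, h (v + s • w) = Fintype.card G * (h v + h w)) :
    Pol (Fintype.card G + 1) h := by
  intro d
  have hc : (Fintype.card G : ℝ) ≠ 0 := by exact_mod_cast Fintype.card_ne_zero
  refine frechet (Fintype.card G)
    ((univ : Finset G).toList.map (fun s => (s, fun v => dif d h v / Fintype.card G))) (dif d h)
    ?_ ?_
  · simp
  · intro v w
    rw [List.map_map]
    have h1 : ((fun p : G × (V → ℝ) => p.2 (v + p.1 • w)) ∘
        fun s => (s, fun v => dif d h v / Fintype.card G)) =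
        fun s => dif d h (v + s • w) / Fintype.card G := rfl
    rw [h1, sum_map_toList, ← sum_div, div_eq_iff hc]
    simp only [dif]
    rw [sum_sub_distrib, hsum]
    have h2 : ∑ s : G, h (v + s • w + d) = ∑ s : G, h ((v + d) + s • w) :=
      sum_congr rfl fun s _ => by rw [add_right_comm]
    rw [h2, hsum]
    ring

end Main

section Dense

theorem tendsto_floor_div (x : ℝ) :
    Tendsto (fun j : ℕ => (j : ℝ)⁻¹ * (⌊(j : ℝ) * x⌋ : ℝ)) atTop (𝓝 x) := by
  have h1 : Tendsto (fun j : ℕ => (j : ℝ)⁻¹) atTop (𝓝 0) :=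
    tendsto_inv_atTop_zero.comp tendsto_natCast_atTop_atTop
  rw [tendsto_iff_dist_tendsto_zero]
  refine squeeze_zero' (Eventually.of_forall fun _ => dist_nonneg) ?_ h1
  filter_upwards [eventually_ge_atTop 1] with j hj
  have hj' : (0 : ℝ) < j := by exact_mod_cast hj
  have h2 := Int.floor_le ((j : ℝ) * x)
  have h3 := Int.lt_floor_add_one ((j : ℝ) * x)
  rw [Real.dist_eq, abs_le]
  have h4 : (j : ℝ)⁻¹ * (⌊(j : ℝ) * x⌋ : ℝ) - x = (j : ℝ)⁻¹ * ((⌊(j : ℝ) * x⌋ : ℝ) - j * x) := by
    field_simp
  rw [h4]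
  have h5 : (0 : ℝ) < (j : ℝ)⁻¹ := inv_pos.mpr hj'
  constructor
  · have : (j : ℝ)⁻¹ * (-1) ≤ (j : ℝ)⁻¹ * ((⌊(j : ℝ) * x⌋ : ℝ) - j * x) :=
      mul_le_mul_of_nonneg_left (by linarith) h5.le
    linarith
  · have : (j : ℝ)⁻¹ * ((⌊(j : ℝ) * x⌋ : ℝ) - j * x) ≤ (j : ℝ)⁻¹ * 1 :=
      mul_le_mul_of_nonneg_left (by linarith) h5.le
    linarith

/-- from integral to real vectors -/
theorem nonneg_of_int {σ : Type*} {Φ : (σ → ℝ) → ℝ} (hΦ : Continuous Φ) {k : ℕ}
    (hom : ∀ (t : ℝ) (x : σ → ℝ), Φ (fun i => t * x i) = t ^ k * Φ x)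
    (hint : ∀ n : σ → ℤ, 0 ≤ Φ (fun i => (n i : ℝ))) (x : σ → ℝ) : 0 ≤ Φ x := by
  have h1 : Tendsto (fun j : ℕ => (fun i => (j : ℝ)⁻¹ * (⌊(j : ℝ) * x i⌋ : ℝ) : σ → ℝ)) atTop
      (𝓝 x) := tendsto_pi_nhds.mpr fun i => tendsto_floor_div (x i)
  refine ge_of_tendsto' ((hΦ.tendsto x).comp h1) fun j => ?_
  show 0 ≤ Φ (fun i => (j : ℝ)⁻¹ * (⌊(j : ℝ) * x i⌋ : ℝ))
  rw [hom]
  exact mul_nonneg (by positivity) (hint fun i => ⌊(j : ℝ) * x i⌋)

theorem zero_of_int {σ : Type*} {Φ : (σ → ℝ) → ℝ} (hΦ : Continuous Φ) {k : ℕ}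
    (hom : ∀ (t : ℝ) (x : σ → ℝ), Φ (fun i => t * x i) = t ^ k * Φ x)
    (hint : ∀ n : σ → ℤ, Φ (fun i => (n i : ℝ)) = 0) (x : σ → ℝ) : Φ x = 0 := by
  have h1 := nonneg_of_int hΦ hom (fun n => (hint n).ge) x
  have h2 := nonneg_of_int (Φ := fun x => -Φ x) hΦ.neg (k := k)
    (fun t x => by rw [hom]; ring) (fun n => by rw [hint, neg_zero]) x
  linarith

end Dense

section Top

variable {G : Type*} [Group G] [Fintype G]

/-- left translation of functions -/
def tr (s : G) {R : Type*} (x : G → R) : G → R := fun t => x (s⁻¹ * t)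

/-- **The top form vanishes in degree `≥ 3`.** -/
theorem top_zero (P : MvPolynomial G ℝ) {k : ℕ} (hP : P.IsHomogeneous k) (hk : 3 ≤ k)
    (hnn : ∀ n : G → ℤ, 0 ≤ MvPolynomial.eval (fun i => (n i : ℝ)) P)
    (hG : ∀ (s : G) (n : G → ℤ), MvPolynomial.eval (fun i => ((tr s n i : ℤ) : ℝ)) P =
      MvPolynomial.eval (fun i => (n i : ℝ)) P)
    (hsum : ∀ n m : G → ℤ, ∑ s : G, MvPolynomial.eval (fun i => (((n + tr s m) i : ℤ) : ℝ)) P =
      Fintype.card G * (MvPolynomial.eval (fun i => (n i : ℝ)) P +
        MvPolynomial.eval (fun i => (m i : ℝ)) P)) : P = 0 := by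
  have hcont : Continuous fun x : G → ℝ => MvPolynomial.eval x P := MvPolynomial.continuous_eval P
  have hom : ∀ (t : ℝ) (x : G → ℝ), MvPolynomial.eval (fun i => t * x i) P =
      t ^ k * MvPolynomial.eval x P := eval_smul_hom hP
  have hnn' : ∀ x : G → ℝ, 0 ≤ MvPolynomial.eval x P := nonneg_of_int hcont hom hnn
  have htr : ∀ s : G, Continuous fun x : G → ℝ => tr s x := fun s =>
    continuous_pi fun t => continuous_apply _
  have hG' : ∀ (s : G) (x : G → ℝ), MvPolynomial.eval (tr s x) P = MvPolynomial.eval x P := by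
    intro s x
    have := zero_of_int (Φ := fun x : G → ℝ => MvPolynomial.eval (tr s x) P -
      MvPolynomial.eval x P) ((hcont.comp (htr s)).sub hcont) (k := k) (fun t x => by
        show MvPolynomial.eval (fun i => t * tr s x i) P - _ = _
        rw [hom, hom]
        ring) (fun n => by
        have h1 := hG s n
        rw [sub_eq_zero]
        exact h1) x
    exact sub_eq_zero.mp this
  have hsum' : ∀ x y : G → ℝ, ∑ s : G, MvPolynomial.eval (fun i => x i + tr s y i) P =
      Fintype.card G * (MvPolynomial.eval x P + MvPolynomial.eval y P) := by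
    intro x y
    have := zero_of_int (σ := G ⊕ G) (Φ := fun z : G ⊕ G → ℝ =>
      ∑ s : G, MvPolynomial.eval (fun i => z (Sum.inl i) + tr s (fun j => z (Sum.inr j)) i) P -
      Fintype.card G * (MvPolynomial.eval (fun i => z (Sum.inl i)) P +
        MvPolynomial.eval (fun i => z (Sum.inr i)) P)) (by
          have h1 : Continuous fun z : G ⊕ G → ℝ => (fun i => z (Sum.inl i) : G → ℝ) :=
            continuous_pi fun t => continuous_apply _
          have h2 : Continuous fun z : G ⊕ G → ℝ => (fun i => z (Sum.inr i) : G → ℝ) :=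
            continuous_pi fun t => continuous_apply _
          refine Continuous.sub (continuous_finsetSum _ fun s _ => hcont.comp ?_)
            (continuous_const.mul ((hcont.comp h1).add (hcont.comp h2)))
          refine continuous_pi fun t => (continuous_apply _).add ?_
          exact continuous_apply (Sum.inr (s⁻¹ * t))) (k := k) (fun t z => by
          have h3 : ∀ s : G, MvPolynomial.eval (fun i => t * z (Sum.inl i) +
              tr s (fun j => t * z (Sum.inr j)) i) P =
              t ^ k * MvPolynomial.eval (fun i => z (Sum.inl i) +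
                tr s (fun j => z (Sum.inr j)) i) P := by
            intro s
            rw [← hom]
            congr 2
            funext i
            simp only [tr]
            ring
          simp only [h3]
          rw [← mul_sum, hom t (fun i => z (Sum.inl i)), hom t (fun i => z (Sum.inr i))]
          ring) (fun n => by
          have h4 := hsum (fun i => n (Sum.inl i)) (fun i => n (Sum.inr i))
          rw [sub_eq_zero, ← h4]
          refine sum_congr rfl fun s _ => ?_
          congr 2
          funext i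
          simp [tr]) (Sum.elim x y)
    simp only [Sum.elim_inl, Sum.elim_inr] at this
    exact sub_eq_zero.mp this
  -- parity
  rcases Nat.even_or_odd' k with ⟨l, rfl | rfl⟩
  · have hz := form_zero (E := EuclideanSpace ℝ G) (G := G)
      (fun s => LinearIsometryEquiv.piLpCongrLeft 2 ℝ ℝ (Equiv.mulLeft s))
      (fun x => MvPolynomial.eval (fun i => x i) P)
      (hcont.comp (PiLp.continuous_ofLp 2 fun _ : G => ℝ)) (fun x => hnn' _) (l := l)
      (by omega) (fun t x => hom t _) (fun s x => by
        have := hG' s (fun i => x i)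
        refine Eq.trans ?_ this
        congr 2) (fun x y => by
        have := hsum' (fun i => x i) (fun i => y i)
        refine Eq.trans ?_ this
        refine sum_congr rfl fun s _ => ?_
        congr 2)
    apply MvPolynomial.funext
    intro x
    rw [map_zero]
    exact hz (WithLp.toLp 2 x)
  · apply MvPolynomial.funext
    intro x
    rw [map_zero]
    have h1 := hom (-1) x
    rw [Odd.neg_one_pow ⟨l, rfl⟩] at h1
    have h2 := hnn' (fun i => -1 * x i)
    have h3 := hnn' x
    linarith

end Top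

section Final

variable {V : Type*} [AddCommGroup V] {G : Type*} [Group G] [Fintype G] [DistribMulAction G V]

/-- the orbit map -/
def orb (G : Type*) [Group G] [Fintype G] [DistribMulAction G V] (v : V) (n : G → ℤ) : V :=
  ∑ s : G, n s • (s • v)

theorem orb_add (v : V) (n m : G → ℤ) : orb G v (n + m) = orb G v n + orb G v m := by
  simp only [orb, Pi.add_apply, add_smul, sum_add_distrib]

theorem orb_smul (v : V) (j : ℤ) (n : G → ℤ) : orb G v (j • n) = j • orb G v n := by
  simp only [orb, Pi.smul_apply, smul_eq_mul, mul_smul, smul_sum]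

theorem orb_tr (v : V) (s : G) (n : G → ℤ) : orb G v (tr s n) = s • orb G v n := by
  simp only [orb, tr, smul_sum]
  refine (Fintype.sum_equiv (Equiv.mulLeft s) _ _ fun t => ?_).symm
  rw [Equiv.coe_mulLeft, inv_mul_cancel_left, mul_smul, smul_comm]

theorem orb_single [DecidableEq G] (v : V) : orb G v (Pi.single 1 1) = v := by
  rw [orb, sum_eq_single 1]
  · rw [Pi.single_eq_same, one_smul, one_smul]
  · intro s _ hs
    rw [Pi.single_eq_of_ne hs, zero_smul]
  · intro h
    exact absurd (mem_univ _) h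

/-- **Quadratic functions from averages.** -/
theorem quad (h : V → ℝ) (hz : h 0 = 0) (hnn : ∀ v, 0 ≤ h v) (hneg : ∀ v, h (-v) = h v)
    (hinv : ∀ (s : G) v, h (s • v) = h v)
    (hsum : ∀ v w, ∑ s : G, h (v + s • w) = Fintype.card G * (h v + h w)) (n : ℤ) (v : V) :
    h (n • v) = (n : ℝ) ^ 2 * h v := by
  classical
  obtain ⟨p, hp⟩ := exists_mv (fun s : G => s • v) (Fintype.card G + 1) univ h (pol_of_sum hsum)
  have hp' : ∀ n : G → ℤ, h (orb G v n) = MvPolynomial.eval (fun i => (n i : ℝ)) p := hp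
  set k := p.totalDegree with hk
  set P := MvPolynomial.homogeneousComponent k p with hPdef
  have hP : P.IsHomogeneous k := MvPolynomial.homogeneousComponent_isHomogeneous k p
  have hlim : ∀ n : G → ℤ, Tendsto (fun j : ℕ => h ((j : ℤ) • orb G v n) / (j : ℝ) ^ k) atTop
      (𝓝 (MvPolynomial.eval (fun i => (n i : ℝ)) P)) := by
    intro n
    refine (tendsto_top p (fun i => (n i : ℝ))).congr fun j => ?_
    rw [← orb_smul, hp']
    congr 2
    congr 1
    funext i
    simp
  have hk2 : k ≤ 2 := by
    by_contra hcon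
    have hP0 : P = 0 := by
      refine top_zero P hP (by omega) (fun n => ?_) (fun s n => ?_) (fun n m => ?_)
      · exact ge_of_tendsto' (hlim n) fun j => div_nonneg (hnn _) (by positivity)
      · refine tendsto_nhds_unique (hlim (tr s n)) ((hlim n).congr fun j => ?_)
        rw [orb_tr, smul_comm, hinv]
      · have h1 : Tendsto (fun j : ℕ => ∑ s : G, h ((j : ℤ) • orb G v (n + tr s m)) /
            (j : ℝ) ^ k) atTop (𝓝 (∑ s : G,
              MvPolynomial.eval (fun i => (((n + tr s m) i : ℤ) : ℝ)) P)) :=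
          tendsto_finsetSum _ fun s _ => hlim (n + tr s m)
        refine tendsto_nhds_unique h1
          ((((hlim n).add (hlim m)).const_mul (Fintype.card G : ℝ)).congr fun j => ?_)
        rw [← sum_div, ← add_div, ← mul_div_assoc, ← hsum]
        congr 1
        refine sum_congr rfl fun s _ => ?_
        rw [orb_add, orb_tr, smul_add, smul_comm]
    have hp0 : p ≠ 0 := by
      rintro rfl
      rw [MvPolynomial.totalDegree_zero] at hk
      omega
    obtain ⟨d, hd, hdk⟩ := Finset.exists_mem_eq_sup p.support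
      (MvPolynomial.support_nonempty.mpr hp0) (fun s => s.sum fun _ e => e)
    have h2 : MvPolynomial.coeff d P = 0 := by rw [hP0, MvPolynomial.coeff_zero]
    rw [hPdef, MvPolynomial.coeff_homogeneousComponent, if_pos] at h2
    · exact (MvPolynomial.mem_support_iff.mp hd) h2
    · rw [hk]
      exact hdk.symm
  have hexp : ∀ j : ℤ, h (j • v) = ∑ i ∈ range 3, (j : ℝ) ^ i *
      MvPolynomial.eval (fun i => ((Pi.single 1 1 : G → ℤ) i : ℝ))
        (MvPolynomial.homogeneousComponent i p) := by
    intro j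
    have h1 : h (j • v) = MvPolynomial.eval
        (fun i => (j : ℝ) * ((Pi.single 1 1 : G → ℤ) i : ℝ)) p := by
      conv_lhs => rw [← orb_single (G := G) v, ← orb_smul, hp']
      congr 2
      funext i
      simp
    rw [h1, eval_smul_sum, ← hk]
    refine sum_subset (range_subset_range.mpr (by omega)) fun i _ hi => ?_
    rw [MvPolynomial.homogeneousComponent_eq_zero, map_zero, mul_zero]
    rw [mem_range] at hi
    omega
  have e0 := hexp 0
  have e1 := hexp 1
  have e2 := hexp (-1)
  have e3 := hexp n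
  simp only [sum_range_succ, sum_range_zero, pow_zero, pow_one, one_mul, zero_add] at e0 e1 e2 e3
  rw [zero_smul, hz] at e0
  rw [one_smul] at e1
  rw [neg_smul, one_smul, hneg] at e2
  push_cast at e0 e1 e2 e3
  have ha0 : MvPolynomial.eval (fun i => ((Pi.single 1 1 : G → ℤ) i : ℝ))
      (MvPolynomial.homogeneousComponent 0 p) = 0 := by linarith
  have ha1 : MvPolynomial.eval (fun i => ((Pi.single 1 1 : G → ℤ) i : ℝ))
      (MvPolynomial.homogeneousComponent 1 p) = 0 := by linarith
  rw [ha0, ha1] at e1 e3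
  rw [e3, e1]
  ring

end Final

end Fermat.Agent.AVQuad
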