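import Fermat.Agent.AVn.B1
import Fermat.Agent.BaseChangeFF.Basic

/-!
# Finiteness input for the degree formula on `Frac(E₁ ⊗ E₂ ⊗ F₀)`
-/

set_option autoImplicit false

noncomputable section

open Module IntermediateField AlgebraicCurve Fermat.Agent.FunField Fermat.Agent.BaseChangeFF

namespace Fermat.Agent.AVn

/-- A finitely generated extension `L/k₀` of transcendence degree `≤ 2` is finite over
`k₀(Φ)(l)` for `Φ` transcendental over `k₀` and `l` transcendental over `k₀(Φ)`. -/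
theorem finiteDimensional_adjoin_adjoin {k₀ L : Type*} [Field k₀] [Field L] [Algebra k₀ L]
    [hf : Algebra.EssFiniteType k₀ L] (htr : Algebra.trdeg k₀ L ≤ 2) {Φ l : L}
    (hΦ : Transcendental k₀ Φ) (hl : Transcendental k₀⟮Φ⟯ l) :
    FiniteDimensional k₀⟮Φ⟯⟮l⟯ L := by
  have h1 : Algebra.trdeg k₀⟮Φ⟯ L ≤ 1 := by
    have h := _root_.trdeg_add_eq k₀ k₀⟮Φ⟯ (A := L)
    have hne : Algebra.trdeg k₀ k₀⟮Φ⟯ ≠ 0 := by
      rw [_root_.trdeg_ne_zero_iff]
      refine ⟨⟨AdjoinSimple.gen k₀ Φ, fun halg => hΦ ?_⟩⟩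
      have := halg.algebraMap (A := L)
      simpa using this
    have h1le : 1 ≤ Algebra.trdeg k₀ k₀⟮Φ⟯ := Cardinal.one_le_iff_ne_zero.2 hne
    have h2 : 1 + Algebra.trdeg k₀⟮Φ⟯ L ≤ 1 + 1 := by
      rw [one_add_one_eq_two]
      exact (add_le_add_left h1le _).trans (h.le.trans htr)
    rw [add_comm] at h2
    exact (Cardinal.add_le_add_iff_of_lt_aleph0 Cardinal.one_lt_aleph0).1 h2
  have h2 : Algebra.IsAlgebraic k₀⟮Φ⟯⟮l⟯ L := by
    have h := _root_.trdeg_add_eq k₀⟮Φ⟯ k₀⟮Φ⟯⟮l⟯ (A := L)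
    have hne : Algebra.trdeg k₀⟮Φ⟯ k₀⟮Φ⟯⟮l⟯ ≠ 0 := by
      rw [_root_.trdeg_ne_zero_iff]
      refine ⟨⟨AdjoinSimple.gen k₀⟮Φ⟯ l, fun halg => hl ?_⟩⟩
      have := halg.algebraMap (A := L)
      simpa using this
    have h1le : 1 ≤ Algebra.trdeg k₀⟮Φ⟯ k₀⟮Φ⟯⟮l⟯ := Cardinal.one_le_iff_ne_zero.2 hne
    have h2 : 1 + Algebra.trdeg k₀⟮Φ⟯⟮l⟯ L ≤ 0 + 1 := by
      rw [zero_add]
      exact (add_le_add_left h1le _).trans (h.le.trans h1)
    rw [add_comm] at h2
    have h3 := (Cardinal.add_le_add_iff_of_lt_aleph0 Cardinal.one_lt_aleph0).1 h2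
    rw [← _root_.trdeg_eq_zero_iff]
    exact le_antisymm h3 zero_le
  have h3 : Algebra.EssFiniteType k₀⟮Φ⟯ L := Algebra.EssFiniteType.of_comp k₀ k₀⟮Φ⟯ L
  have h4 : Algebra.EssFiniteType k₀⟮Φ⟯⟮l⟯ L := Algebra.EssFiniteType.of_comp k₀⟮Φ⟯ k₀⟮Φ⟯⟮l⟯ L
  exact finiteDimensional_of_essFiniteType_of_isAlgebraic k₀⟮Φ⟯⟮l⟯ L

/-- one variable version -/
theorem finiteDimensional_adjoin_of_trdeg_le_one {k₀ L : Type*} [Field k₀] [Field L] [Algebra k₀ L]
    [hf : Algebra.EssFiniteType k₀ L] (htr : Algebra.trdeg k₀ L ≤ 1) {Φ : L}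
    (hΦ : Transcendental k₀ Φ) : FiniteDimensional k₀⟮Φ⟯ L := by
  have h2 : Algebra.IsAlgebraic k₀⟮Φ⟯ L := by
    have h := _root_.trdeg_add_eq k₀ k₀⟮Φ⟯ (A := L)
    have hne : Algebra.trdeg k₀ k₀⟮Φ⟯ ≠ 0 := by
      rw [_root_.trdeg_ne_zero_iff]
      refine ⟨⟨AdjoinSimple.gen k₀ Φ, fun halg => hΦ ?_⟩⟩
      have := halg.algebraMap (A := L)
      simpa using this
    have h1le : 1 ≤ Algebra.trdeg k₀ k₀⟮Φ⟯ := Cardinal.one_le_iff_ne_zero.2 hne
    have h2 : 1 + Algebra.trdeg k₀⟮Φ⟯ L ≤ 0 + 1 := by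
      rw [zero_add]
      exact (add_le_add_left h1le _).trans (h.le.trans htr)
    rw [add_comm] at h2
    have h3 := (Cardinal.add_le_add_iff_of_lt_aleph0 Cardinal.one_lt_aleph0).1 h2
    rw [← _root_.trdeg_eq_zero_iff]
    exact le_antisymm h3 zero_le
  have h3 : Algebra.EssFiniteType k₀⟮Φ⟯ L := Algebra.EssFiniteType.of_comp k₀ k₀⟮Φ⟯ L
  exact finiteDimensional_of_essFiniteType_of_isAlgebraic k₀⟮Φ⟯ L

section BCgen

variable {k E₁ E₂ M : Type*} [Field k] [Field E₁] [Field E₂] [Field M] [Algebra k E₁]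
  [Algebra k E₂] [Algebra E₁ M] [Algebra E₂ M] [Algebra k M] [IsScalarTower k E₁ M]
  [IsScalarTower k E₂ M]

/-- a subfield containing `K` and `F₀` is everything -/
theorem mem_of_bc {K₀ K F₀ F : Type*} [Field K₀] [Field K] [Algebra K₀ K] [Field F₀]
    [Algebra K₀ F₀] [Field F] [Algebra K F] [Algebra F₀ F] [Algebra K₀ F] [IsScalarTower K₀ K F]
    [IsScalarTower K₀ F₀ F] [h : BC K₀ K F₀ F] (C : Subfield F)
    (h₁ : ∀ x : K, algebraMap K F x ∈ C) (h₂ : ∀ x : F₀, algebraMap F₀ F x ∈ C) (z : F) :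
    z ∈ C := by
  have key : ∀ a ∈ Submodule.span K (Set.range (algebraMap F₀ F)), a ∈ C := by
    intro a ha
    induction ha using Submodule.span_induction with
    | mem a ha =>
      obtain ⟨y, rfl⟩ := ha
      exact h₂ y
    | zero => exact C.zero_mem
    | add a b _ _ ha hb => exact C.add_mem ha hb
    | smul c a _ ha =>
      rw [Algebra.smul_def]
      exact C.mul_mem (h₁ c) ha
  obtain ⟨a, b, ha, hb, hb0, hab⟩ := h.gen z
  have : z = a / b := by
    rw [← hab, mul_div_cancel_right₀ _ hb0]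
  rw [this]
  exact C.div_mem (key a ha) (key b hb)

/-- transfer of algebraicity from `E/k(u)` to a larger field -/
theorem isAlgebraic_of_isAlgebraic_adjoin {k E L : Type*} [Field k] [Field E] [Field L]
    [Algebra k E] [Algebra k L] (i : E →ₐ[k] L) {u : E} [Algebra.IsAlgebraic k⟮u⟯ E]
    {N : Type*} [Field N] [Algebra N L] (hN : ∀ c : k, algebraMap k L c ∈ (algebraMap N L).range)
    (hu : i u ∈ (algebraMap N L).range) (e : E) : IsAlgebraic N (i e) := by
  let T : IntermediateField k E :=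
    { carrier := {x | ∃ d : N, algebraMap N L d = i x}
      mul_mem' := by
        rintro x y ⟨a, ha⟩ ⟨b, hb⟩
        exact ⟨a * b, by rw [map_mul, map_mul, ha, hb]⟩
      one_mem' := ⟨1, by rw [map_one, map_one]⟩
      add_mem' := by
        rintro x y ⟨a, ha⟩ ⟨b, hb⟩
        exact ⟨a + b, by rw [map_add, map_add, ha, hb]⟩
      zero_mem' := ⟨0, by rw [map_zero, map_zero]⟩
      algebraMap_mem' := fun c => by
        obtain ⟨d, hd⟩ := hN c
        exact ⟨d, by rw [hd, AlgHom.commutes]⟩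
      inv_mem' := by
        rintro x ⟨a, ha⟩
        exact ⟨a⁻¹, by rw [map_inv₀, map_inv₀, ha]⟩ }
  have h1 : k⟮u⟯ ≤ T := by
    rw [adjoin_simple_le_iff]
    exact hu
  have hmem : ∀ c : k⟮u⟯, ∃ d : N, algebraMap N L d = i c := fun c => h1 c.2
  choose g hg using hmem
  let φ : k⟮u⟯ →+* N :=
    { toFun := g
      map_one' := (algebraMap N L).injective (by rw [hg, map_one]; simp)
      map_zero' := (algebraMap N L).injective (by rw [hg, map_zero]; simp)
      map_add' := fun a b => (algebraMap N L).injective (by rw [map_add, hg, hg, hg]; simp)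
      map_mul' := fun a b => (algebraMap N L).injective (by rw [map_mul, hg, hg, hg]; simp) }
  have hφ : (algebraMap N L).comp φ = (i : E →+* L).comp (algebraMap k⟮u⟯ E) := by
    ext c
    exact hg c
  have := IsIntegral.map_of_comp_eq φ (i : E →+* L) hφ
    (Algebra.IsAlgebraic.isAlgebraic (R := k⟮u⟯) e).isIntegral
  exact this.isAlgebraic

/-- the image of a finitely generated field is contained in any subfield containing the constants
and the images of the generators -/
theorem mem_of_adjoin_eq_top {k E L : Type*} [Field k] [Field E] [Field L]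
    [Algebra k E] [Algebra k L] (i : E →ₐ[k] L) {s : Set E} (hs : IntermediateField.adjoin k s = ⊤)
    (C : Subfield L) (hk : ∀ c : k, algebraMap k L c ∈ C) (hC : ∀ x ∈ s, i x ∈ C) (e : E) :
    i e ∈ C := by
  let C' : IntermediateField k L := C.toIntermediateField hk
  have h1 : IntermediateField.adjoin k s ≤ C'.comap i := by
    rw [adjoin_le_iff]
    exact hC
  rw [hs] at h1
  exact h1 (mem_top (x := e))

/-- **Two variables**: `L = Frac(E₁ ⊗ E₂)·F₀` is finitely generated of transcendence degree `≤ 2`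
over any field of constants containing `k` and `F₀`. -/
theorem bc2_fin [BC k E₁ E₂ M] {K F₀ L : Type*} [Field K] [Field F₀] [Field L] [Algebra K M]
    [Algebra K F₀] [Algebra M L] [Algebra F₀ L] [Algebra K L] [IsScalarTower K M L]
    [IsScalarTower K F₀ L] [BC K M F₀ L] [Algebra k L] [IsScalarTower k M L] (u₁ : E₁) (u₂ : E₂)
    [FiniteDimensional k⟮u₁⟯ E₁] [FiniteDimensional k⟮u₂⟯ E₂] (ka : IntermediateField k L)
    (hka : ∀ y : F₀, algebraMap F₀ L y ∈ ka) :
    Algebra.EssFiniteType ka L ∧ Algebra.trdeg ka L ≤ 2 := by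
  classical
  let j : M →ₐ[k] L := IsScalarTower.toAlgHom k M L
  let i₁ : E₁ →ₐ[k] L := j.comp (IsScalarTower.toAlgHom k E₁ M)
  let i₂ : E₂ →ₐ[k] L := j.comp (IsScalarTower.toAlgHom k E₂ M)
  have key : ∀ (C : Subfield L) (h : ∀ c ∈ ka, c ∈ C) (h₁ : ∀ e, i₁ e ∈ C) (h₂ : ∀ e, i₂ e ∈ C)
      (z : L), z ∈ C := by
    intro C h h₁ h₂ z
    have hM : ∀ m : M, algebraMap M L m ∈ C := by
      intro m
      exact mem_of_bc (K₀ := k) (K := E₁) (F₀ := E₂) (F := M) (C.comap (algebraMap M L))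
        h₁ h₂ m
    exact mem_of_bc (K₀ := K) (K := M) (F₀ := F₀) (F := L) C hM (fun y => h _ (hka y)) z
  constructor
  · have := essFiniteType_of_finite (K := k) (x := u₁)
    have := essFiniteType_of_finite (K := k) (x := u₂)
    obtain ⟨s₁, hs₁⟩ := IntermediateField.fg_top k E₁
    obtain ⟨s₂, hs₂⟩ := IntermediateField.fg_top k E₂
    rw [← fg_top_iff]
    refine ⟨s₁.image i₁ ∪ s₂.image i₂, ?_⟩
    rw [eq_top_iff]
    intro z _
    refine key (IntermediateField.adjoin ka _).toSubfield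
      (fun c hc => IntermediateField.algebraMap_mem _ (⟨c, hc⟩ : ka)) (fun e => ?_)
      (fun e => ?_) z
    · refine mem_of_adjoin_eq_top i₁ hs₁ _ (fun c => IntermediateField.algebraMap_mem _
        (⟨_, ka.algebraMap_mem c⟩ : ka)) (fun x hx => ?_) e
      have hS : i₁ x ∈ ((s₁.image i₁ ∪ s₂.image i₂ : Finset L) : Set L) := by
        rw [Finset.mem_coe, Finset.mem_union, Finset.mem_image]
        exact Or.inl ⟨x, hx, rfl⟩
      exact subset_adjoin ka _ hS
    · refine mem_of_adjoin_eq_top i₂ hs₂ _ (fun c => IntermediateField.algebraMap_mem _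
        (⟨_, ka.algebraMap_mem c⟩ : ka)) (fun x hx => ?_) e
      have hS : i₂ x ∈ ((s₁.image i₁ ∪ s₂.image i₂ : Finset L) : Set L) := by
        rw [Finset.mem_coe, Finset.mem_union, Finset.mem_image]
        exact Or.inr (Finset.mem_image.2 ⟨x, hx, rfl⟩)
      exact subset_adjoin ka _ hS
  · let N : IntermediateField ka L := IntermediateField.adjoin ka {i₁ u₁, i₂ u₂}
    have hNk : ∀ c : k, algebraMap k L c ∈ (algebraMap N L).range := fun c =>
      ⟨⟨algebraMap k L c, N.algebraMap_mem ⟨_, ka.algebraMap_mem c⟩⟩, rfl⟩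
    have halg : Algebra.IsAlgebraic N L := by
      refine ⟨fun z => ?_⟩
      have h := key (_root_.algebraicClosure N L).toSubfield
        (fun c hc => IntermediateField.algebraMap_mem _
          (⟨c, IntermediateField.algebraMap_mem _ (⟨c, hc⟩ : ka)⟩ : N)) (fun e => ?_)
        (fun e => ?_) z
      · exact mem_algebraicClosure_iff.1 h
      · exact mem_algebraicClosure_iff.2 (isAlgebraic_of_isAlgebraic_adjoin i₁ (u := u₁) hNk
          ⟨⟨i₁ u₁, subset_adjoin _ _ (Or.inl rfl)⟩, rfl⟩ e)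
      · exact mem_algebraicClosure_iff.2 (isAlgebraic_of_isAlgebraic_adjoin i₂ (u := u₂) hNk
          ⟨⟨i₂ u₂, subset_adjoin _ _ (Or.inr rfl)⟩, rfl⟩ e)
    have halg' : Algebra.IsAlgebraic (Algebra.adjoin ka {i₁ u₁, i₂ u₂}) L :=
      isAlgebraic_adjoin_iff_top.1 halg
    refine (Algebra.IsAlgebraic.trdeg_le_cardinalMk ka _ (alg := halg')).trans ?_
    refine (Cardinal.mk_insert_le).trans ?_
    rw [Cardinal.mk_singleton, one_add_one_eq_two]

/-- **One variable**: `L = E·F₀` is finitely generated of transcendence degree `≤ 1`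
over any field of constants containing `k` and `F₀`. -/
theorem bc1_fin {k E K F₀ L : Type*} [Field k] [Field E] [Algebra k E] [Field K] [Field F₀]
    [Field L] [Algebra K E] [Algebra K F₀] [Algebra E L] [Algebra F₀ L] [Algebra K L]
    [IsScalarTower K E L] [IsScalarTower K F₀ L] [BC K E F₀ L] [Algebra k L] [IsScalarTower k E L]
    (u : E) [FiniteDimensional k⟮u⟯ E] (ka : IntermediateField k L)
    (hka : ∀ y : F₀, algebraMap F₀ L y ∈ ka) :
    Algebra.EssFiniteType ka L ∧ Algebra.trdeg ka L ≤ 1 := by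
  classical
  let i : E →ₐ[k] L := IsScalarTower.toAlgHom k E L
  have key : ∀ (C : Subfield L) (h : ∀ c ∈ ka, c ∈ C) (h₁ : ∀ e, i e ∈ C) (z : L), z ∈ C := by
    intro C h h₁ z
    exact mem_of_bc (K₀ := K) (K := E) (F₀ := F₀) (F := L) C h₁ (fun y => h _ (hka y)) z
  constructor
  · have := essFiniteType_of_finite (K := k) (x := u)
    obtain ⟨s, hs⟩ := IntermediateField.fg_top k E
    rw [← fg_top_iff]
    refine ⟨s.image i, ?_⟩
    rw [eq_top_iff]
    intro z _
    refine key (IntermediateField.adjoin ka _).toSubfield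
      (fun c hc => IntermediateField.algebraMap_mem _ (⟨c, hc⟩ : ka)) (fun e => ?_) z
    refine mem_of_adjoin_eq_top i hs _ (fun c => IntermediateField.algebraMap_mem _
      (⟨_, ka.algebraMap_mem c⟩ : ka)) (fun x hx => ?_) e
    have hS : i x ∈ ((s.image i : Finset L) : Set L) := by
      rw [Finset.mem_coe, Finset.mem_image]
      exact ⟨x, hx, rfl⟩
    exact subset_adjoin ka _ hS
  · let N : IntermediateField ka L := IntermediateField.adjoin ka {i u}
    have hNk : ∀ c : k, algebraMap k L c ∈ (algebraMap N L).range := fun c =>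
      ⟨⟨algebraMap k L c, N.algebraMap_mem ⟨_, ka.algebraMap_mem c⟩⟩, rfl⟩
    have halg : Algebra.IsAlgebraic N L := by
      refine ⟨fun z => ?_⟩
      have h := key (_root_.algebraicClosure N L).toSubfield
        (fun c hc => IntermediateField.algebraMap_mem _
          (⟨c, IntermediateField.algebraMap_mem _ (⟨c, hc⟩ : ka)⟩ : N)) (fun e => ?_) z
      · exact mem_algebraicClosure_iff.1 h
      · exact mem_algebraicClosure_iff.2 (isAlgebraic_of_isAlgebraic_adjoin i (u := u) hNk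
          ⟨⟨i u, subset_adjoin _ _ rfl⟩, rfl⟩ e)
    have halg' : Algebra.IsAlgebraic (Algebra.adjoin ka {i u}) L :=
      isAlgebraic_adjoin_iff_top.1 halg
    refine (Algebra.IsAlgebraic.trdeg_le_cardinalMk ka _ (alg := halg')).trans ?_
    rw [Cardinal.mk_singleton]

/-- **D6 (ii)** -/
theorem finiteDimensional_kappa_adjoin [BC k E₁ E₂ M] {K F₀ L : Type*} [Field K] [Field F₀]
    [Field L] [Algebra K M] [Algebra K F₀] [Algebra M L] [Algebra F₀ L] [Algebra K L]
    [IsScalarTower K M L] [IsScalarTower K F₀ L] [BC K M F₀ L] [Algebra k L] [IsScalarTower k M L]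
    (u₁ : E₁) (u₂ : E₂) [FiniteDimensional k⟮u₁⟯ E₁] [FiniteDimensional k⟮u₂⟯ E₂] {Φ l : L}
    (hΦ : Transcendental (IntermediateField.adjoin k (Set.range (algebraMap F₀ L))) Φ)
    (hl : Transcendental (IntermediateField.adjoin k (insert Φ (Set.range (algebraMap F₀ L)))) l) :
    FiniteDimensional (IntermediateField.adjoin k (insert Φ (Set.range (algebraMap F₀ L))))⟮l⟯
      L := by
  have h1 : IntermediateField.adjoin k (insert Φ (Set.range (algebraMap F₀ L))) =
      ((IntermediateField.adjoin k (Set.range (algebraMap F₀ L)))⟮Φ⟯).restrictScalars k := by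
    rw [adjoin_adjoin_left, Set.union_singleton]
  rw [h1] at hl ⊢
  obtain ⟨h2, h3⟩ := bc2_fin (E₁ := E₁) (E₂ := E₂) (M := M) (K := K) (F₀ := F₀) (L := L) u₁ u₂
    (IntermediateField.adjoin k (Set.range (algebraMap F₀ L)))
    (fun y => subset_adjoin _ _ ⟨y, rfl⟩)
  exact finiteDimensional_adjoin_adjoin h3 hΦ hl

/-- **D6 (i), finiteness** -/
theorem finiteDimensional_kappa {k E K F₀ L : Type*} [Field k] [Field E] [Algebra k E] [Field K]
    [Field F₀] [Field L] [Algebra K E] [Algebra K F₀] [Algebra E L] [Algebra F₀ L] [Algebra K L]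
    [IsScalarTower K E L] [IsScalarTower K F₀ L] [BC K E F₀ L] [Algebra k L] [IsScalarTower k E L]
    (u : E) [FiniteDimensional k⟮u⟯ E] {Φ : L}
    (hΦ : Transcendental (IntermediateField.adjoin k (Set.range (algebraMap F₀ L))) Φ) :
    FiniteDimensional (IntermediateField.adjoin k (insert Φ (Set.range (algebraMap F₀ L)))) L := by
  have h1 : IntermediateField.adjoin k (insert Φ (Set.range (algebraMap F₀ L))) =
      ((IntermediateField.adjoin k (Set.range (algebraMap F₀ L)))⟮Φ⟯).restrictScalars k := by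
    rw [adjoin_adjoin_left, Set.union_singleton]
  rw [h1]
  obtain ⟨h2, h3⟩ := bc1_fin (E := E) (K := K) (F₀ := F₀) (L := L) u
    (IntermediateField.adjoin k (Set.range (algebraMap F₀ L)))
    (fun y => subset_adjoin _ _ ⟨y, rfl⟩)
  exact finiteDimensional_adjoin_of_trdeg_le_one h3 hΦ

end BCgen

/-- an element of the maximal ideal of a valuation ring containing `κ` is zero or transcendental
over `κ` -/
theorem transcendental_of_mem_nonunits {κ L : Type*} [Field κ] [Field L] [Algebra κ L]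
    (V : ValuationSubring L) (hV : ∀ c : κ, algebraMap κ L c ∈ V) {l : L}
    (hl : l⁻¹ ∉ V) : Transcendental κ l := by
  intro halg
  apply hl
  have h1 : IsIntegral κ l⁻¹ := halg.inv.isIntegral
  let f : κ →+* V := (algebraMap κ L).codRestrict V.toSubring hV
  let _ := f.toAlgebra
  have : IsScalarTower κ V L := IsScalarTower.of_algebraMap_eq fun c => rfl
  have h2 : IsIntegral V l⁻¹ := h1.tower_top
  obtain ⟨y, hy⟩ := IsIntegrallyClosed.isIntegral_iff.mp h2
  rw [← hy]
  exact y.2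

end Fermat.Agent.AVn
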