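import Mathlib

/-!
# Fields of constants in valuation rings (abstract)
-/

set_option autoImplicit false

noncomputable section

open IntermediateField

namespace Fermat.Agent.AVn

section

variable {k₁ Ω κ : Type*} [Field k₁] [Field Ω] [Algebra k₁ Ω] [Field κ] [Algebra k₁ κ]
  (V : ValuationSubring Ω) (r : V →+* κ)

/-- If the elements of a subalgebra `S ⊆ V` have nonzero residues, its fraction field is in `V`. -/
theorem cst_mem_of_adjoin (hr : ∀ a : V, r a = 0 ↔ ¬ IsUnit a)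
    (s : Set Ω) (hs : ∀ x ∈ Algebra.adjoin k₁ s, ∃ h : x ∈ V, (r ⟨x, h⟩ = 0 → x = 0))
    {z : Ω} (hz : z ∈ IntermediateField.adjoin k₁ s) : z ∈ V := by
  obtain ⟨x, hx, y, hy, rfl⟩ := IntermediateField.mem_adjoin_iff_div.mp hz
  obtain ⟨hxV, -⟩ := hs x hx
  obtain ⟨hyV, hy0⟩ := hs y hy
  by_cases h0 : y = 0
  · rw [h0, div_zero]; exact zero_mem _
  · have hu : IsUnit (⟨y, hyV⟩ : V) := by
      by_contra hn
      exact h0 (hy0 ((hr _).mpr hn))
    obtain ⟨w, hw⟩ := hu.exists_right_inv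
    have h1 : y * (w : Ω) = 1 := congrArg Subtype.val hw
    have h2 : x / y = x * (w : Ω) := by
      field_simp
      linear_combination -x * h1
    rw [h2]
    exact mul_mem hxV w.2

variable (hc : ∀ c : k₁, ∃ h : algebraMap k₁ Ω c ∈ V, r ⟨_, h⟩ = algebraMap k₁ κ c)
include hc

/-- residue of polynomial expressions -/
theorem cst_aeval {X : Ω} (hX : X ∈ V) (p : Polynomial k₁) :
    ∃ h : Polynomial.aeval X p ∈ V, r ⟨_, h⟩ = Polynomial.aeval (r ⟨X, hX⟩) p := by
  induction p using Polynomial.induction_on' with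
  | add p q hp hq =>
    obtain ⟨h1, e1⟩ := hp
    obtain ⟨h2, e2⟩ := hq
    rw [map_add, map_add]
    refine ⟨add_mem h1 h2, ?_⟩
    rw [← e1, ← e2]
    exact map_add r ⟨_, h1⟩ ⟨_, h2⟩
  | monomial n c =>
    obtain ⟨h1, e1⟩ := hc c
    rw [Polynomial.aeval_monomial, Polynomial.aeval_monomial]
    refine ⟨mul_mem h1 (pow_mem hX n), ?_⟩
    rw [← e1]
    exact (map_mul r ⟨_, h1⟩ (⟨_, hX⟩ ^ n)).trans (by rw [map_pow])

/-- adjoining an element with transcendental residue -/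
theorem cst_mem_adjoin_simple (hr : ∀ a : V, r a = 0 ↔ ¬ IsUnit a)
    {X : Ω} (hX : X ∈ V) (ht : Transcendental k₁ (r ⟨X, hX⟩))
    {z : Ω} (hz : z ∈ k₁⟮X⟯) : z ∈ V := by
  refine cst_mem_of_adjoin V r hr {X} (fun x hx => ?_) hz
  rw [Algebra.adjoin_singleton_eq_range_aeval] at hx
  obtain ⟨p, rfl⟩ := hx
  obtain ⟨h, e⟩ := cst_aeval V r hc hX p
  refine ⟨h, fun h0 => ?_⟩
  have h1 : Polynomial.aeval (r ⟨X, hX⟩) p = 0 := by rw [← e]; exact h0
  have h2 : p = 0 := by
    by_contra hp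
    exact ht ⟨p, hp, h1⟩
  exact (congrArg _ h2).trans (map_zero _)

/-- if the residue of `X` is transcendental so is `X` -/
theorem cst_transcendental {X : Ω} (hX : X ∈ V) (ht : Transcendental k₁ (r ⟨X, hX⟩)) :
    Transcendental k₁ X := by
  rintro ⟨p, hp, h⟩
  obtain ⟨h1, e⟩ := cst_aeval V r hc hX p
  apply ht
  refine ⟨p, hp, ?_⟩
  rw [← e]
  have : (⟨Polynomial.aeval X p, h1⟩ : V) = 0 := Subtype.ext h
  rw [this, map_zero]

/-- if a field `k₁(X) ⊆ V` with `X` transcendental, then the residue of `X` is transcendental -/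
theorem cst_transcendental_res {X : Ω} (hX : X ∈ V) (ht : Transcendental k₁ X)
    (hV : ∀ z ∈ k₁⟮X⟯, z ∈ V) : Transcendental k₁ (r ⟨X, hX⟩) := by
  rintro ⟨p, hp, h⟩
  obtain ⟨h1, e⟩ := cst_aeval V r hc hX p
  have hne : Polynomial.aeval X p ≠ 0 := fun h0 => ht ⟨p, hp, h0⟩
  have hmem : (Polynomial.aeval X p)⁻¹ ∈ V := by
    apply hV
    apply inv_mem
    exact IntermediateField.algebra_adjoin_le_adjoin _ _ (by
      rw [Algebra.adjoin_singleton_eq_range_aeval]; exact ⟨p, rfl⟩)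
  have h2 : (⟨Polynomial.aeval X p, h1⟩ : V) * ⟨_, hmem⟩ = 1 := Subtype.ext (mul_inv_cancel₀ hne)
  have h3 := congrArg r h2
  rw [map_mul, e, h, zero_mul, map_one] at h3
  exact zero_ne_one h3

end

section

/-- The `finrank` over a field embedded by `σ` is the `finrank` over its image. -/
theorem cst_finrank {κ k Ω : Type*} [Field κ] [Field k] [Field Ω] [Algebra k Ω] (σ : κ →+* Ω)
    (N : IntermediateField k Ω) (hN : ∀ z, z ∈ N ↔ z ∈ σ.fieldRange) :
    @Module.finrank κ Ω _ _ σ.toAlgebra.toModule = Module.finrank N Ω := by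
  letI := σ.toAlgebra
  let e : κ ≃+* N := RingEquiv.ofBijective
    ({ toFun := fun x => ⟨σ x, (hN _).mpr ⟨x, rfl⟩⟩
       map_one' := Subtype.ext (map_one σ)
       map_mul' := fun a b => Subtype.ext (map_mul σ a b)
       map_zero' := Subtype.ext (map_zero σ)
       map_add' := fun a b => Subtype.ext (map_add σ a b) } : κ →+* N) (by
      refine ⟨RingHom.injective _, ?_⟩
      rintro ⟨z, hz⟩
      obtain ⟨x, hx⟩ := (hN z).mp hz
      exact ⟨x, Subtype.ext hx⟩)
  exact Algebra.finrank_eq_of_equiv_equiv e (RingEquiv.refl Ω) (by ext x; rfl)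

end

end Fermat.Agent.AVn
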