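import Fermat.Agent.AVn.Res
import Fermat.Agent.AVn.B1

/-!
# S26 (kb 66), block D5a: the degree of a divisor of constants on `Ma / k(a)(Φ)`
-/

set_option autoImplicit false

noncomputable section

universe u

open IntermediateField

namespace Fermat.Agent.AVn

open Fermat.Agent.BaseChangeFF Fermat.Agent.AVG

/-- a copy of a field for every index -/
def Tg {I : Type*} (Ea : Type u) (_ : I) : Type u := Ea

instance {I : Type*} (Ea : Type u) [Field Ea] (i : I) : Field (Tg Ea i) := inferInstanceAs (Field Ea)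

section

variable {K L κ F₀ : Type u} [Field K] [Field L] [Field κ] [Field F₀] [Algebra K L] [Algebra K κ]
  [Algebra K F₀] (𝔯 : RDk K L κ) (F F₁ : Type u) [Field F] [Algebra L F] [Algebra F₀ F]
  [Algebra K F] [IsScalarTower K L F] [IsScalarTower K F₀ F] [BC K L F₀ F]
  [Field F₁] [Algebra κ F₁] [Algebra F₀ F₁] [Algebra K F₁] [IsScalarTower K κ F₁]
  [IsScalarTower K F₀ F₁] [BC K κ F₀ F₁]

theorem isDVR_O [IsDiscreteValuationRing 𝔯.A] : IsDiscreteValuationRing (𝔯.O F₀ F F₁) := by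
  obtain ⟨ϖ, hϖ⟩ := IsDiscreteValuationRing.exists_irreducible 𝔯.A
  exact (𝔯.isDVR (F₀ := F₀) F F₁ hϖ).1

theorem span_O [IsDiscreteValuationRing 𝔯.A] {x : L} (hx : x ∈ 𝔯.A) {e : ℕ}
    (he : Ideal.span {(⟨x, hx⟩ : 𝔯.A)} = IsLocalRing.maximalIdeal 𝔯.A ^ e) :
    Ideal.span {(⟨algebraMap L F x, 𝔯.algebraMap_mem_O_of_mem F F₁ hx⟩ : 𝔯.O F₀ F F₁)} =
      IsLocalRing.maximalIdeal (𝔯.O F₀ F F₁) ^ e := by
  obtain ⟨ϖ, hϖ⟩ := IsDiscreteValuationRing.exists_irreducible 𝔯.A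
  obtain ⟨h1, h2⟩ := 𝔯.isDVR (F₀ := F₀) F F₁ hϖ
  have h3 : (IsLocalRing.maximalIdeal 𝔯.A) = Ideal.span {ϖ} := hϖ.maximalIdeal_eq
  have h4 : (IsLocalRing.maximalIdeal (𝔯.O F₀ F F₁)) = Ideal.span {(⟨algebraMap L F ϖ,
    𝔯.algebraMap_mem_O_of_mem F F₁ ϖ.2⟩ : 𝔯.O F₀ F F₁)} := h2.maximalIdeal_eq
  rw [h3, Ideal.span_singleton_pow, Ideal.span_singleton_eq_span_singleton] at he
  rw [h4, Ideal.span_singleton_pow, Ideal.span_singleton_eq_span_singleton]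
  obtain ⟨w, hw⟩ := he
  have hw' := (𝔯.isUnit_algebraMap_iff (F₀ := F₀) F F₁ ((w : 𝔯.A)).2).mpr w.isUnit
  refine ⟨hw'.unit, ?_⟩
  apply Subtype.ext
  have h5 := congrArg (fun z : 𝔯.A => algebraMap L F (z : L)) hw
  simpa using h5

end

namespace AVar

variable {K : Type u} [Field K] {g : ℕ} (A : AVar K g)

section Main

variable (k : Type u) {M E : Type u} (Ma Ea : Type u) [Field k] [Field E] [Field M] [Field Ma]
  [Field Ea]
  [Algebra K k] [Algebra k E] [Algebra K E]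
  [Algebra k M] [Algebra K M]
  [Algebra M Ma] [Algebra K Ma] [Algebra k Ma] [Algebra A.F Ma] [IsScalarTower K M Ma]
  [IsScalarTower k M Ma] [IsScalarTower K k Ma] [IsScalarTower K A.F Ma] [BC K M A.F Ma]
  [Algebra E Ea] [Algebra K Ea] [Algebra k Ea] [Algebra A.F Ea] [IsScalarTower K E Ea]
  [IsScalarTower k E Ea] [IsScalarTower K k Ea] [IsScalarTower K A.F Ea] [BC K E A.F Ea]

/-- **degree of the zeros of `x`** (`x` comes from `M`) -/
theorem count {ι : Type*} [Fintype ι] (𝔯 : ι → RDk K M E)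
    (hk : ∀ i, ∀ c : k, ∃ h : algebraMap k M c ∈ (𝔯 i).A, (𝔯 i).π ⟨_, h⟩ = algebraMap k E c)
    (hinj : Function.Injective (fun i => (𝔯 i).O A.F Ma Ea))
    [∀ i, IsDiscreteValuationRing (𝔯 i).A] (f : A.F) (y : A.Pt M)
    (hgen : ∀ i, Algebra.trdeg K
      (A.fd (A.map (IsScalarTower.toAlgHom K E Ea) (A.red (𝔯 i) y) - A.gpt Ea)) = g)
    (h0 : ∀ i, ¬ Transcendental (A.ka k Ea)
      (A.ev (A.map (IsScalarTower.toAlgHom K E Ea) (A.red (𝔯 i) y) - A.gpt Ea) f) →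
      A.hgt k Ea f (A.map (IsScalarTower.toAlgHom K E Ea) (A.red (𝔯 i) y)) = 0)
    (hΦ : Transcendental (A.ka k Ma)
      (A.ev (A.map (IsScalarTower.toAlgHom K M Ma) y - A.gpt Ma) f))
    (x : M) (hx : Transcendental (A.kaf k Ma f (A.map (IsScalarTower.toAlgHom K M Ma) y))
      (algebraMap M Ma x))
    [FiniteDimensional (A.kaf k Ma f (A.map (IsScalarTower.toAlgHom K M Ma) y))⟮algebraMap M Ma x⟯
      Ma]
    (e : ι → ℕ) (he0 : ∀ i, e i ≠ 0) (hxv : ∀ i, x ∈ (𝔯 i).A)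
    (he : ∀ i, Ideal.span {(⟨x, hxv i⟩ : (𝔯 i).A)} = IsLocalRing.maximalIdeal (𝔯 i).A ^ e i)
    (hall : ∀ V : ValuationSubring Ma,
      (∀ z ∈ A.kaf k Ma f (A.map (IsScalarTower.toAlgHom K M Ma) y), z ∈ V) →
      algebraMap M Ma x ∈ V → (algebraMap M Ma x)⁻¹ ∉ V → ∃ i, V = (𝔯 i).O A.F Ma Ea) :
    ∑ i, e i * A.hgt k Ea f (A.map (IsScalarTower.toAlgHom K E Ea) (A.red (𝔯 i) y)) =
      Module.finrank
        (A.kaf k Ma f (A.map (IsScalarTower.toAlgHom K M Ma) y))⟮algebraMap M Ma x⟯ Ma := by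
  classical
  let good : ι → Prop := fun i => Transcendental (A.ka k Ea)
      (A.ev (A.map (IsScalarTower.toAlgHom K E Ea) (A.red (𝔯 i) y) - A.gpt Ea) f)
  have hV : ∀ i : {i // good i}, ∀ z ∈ A.kaf k Ma f (A.map (IsScalarTower.toAlgHom K M Ma) y),
      z ∈ (𝔯 i.1).O A.F Ma Ea := fun i z hz =>
    A.kaf_mem_O k Ma Ea (𝔯 i.1) (hk i.1) f y (hgen i.1) i.2 hz
  letI : ∀ i : {i // good i}, Algebra (A.kaf k Ma f (A.map (IsScalarTower.toAlgHom K M Ma) y))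
      (Tg Ea i) := fun i => (cstHom ((𝔯 i.1).O A.F Ma Ea) (𝔯 i.1).res _ (hV i)).toAlgebra
  haveI : ∀ i : {i // good i}, IsDiscreteValuationRing ((𝔯 i.1).O A.F Ma Ea) := fun i =>
    isDVR_O (𝔯 i.1) Ma Ea
  have key := sum_ef hx (I := {i // good i}) (fun i => (𝔯 i.1).O A.F Ma Ea)
    (fun i j h => Subtype.ext (hinj h)) (fun i => e i.1) (fun i => Tg Ea i)
    (fun i => (𝔯 i.1).res) (fun i => (𝔯 i.1).res_surj Ma Ea) (fun i c => hV i c.1 c.2)
    (fun i c => rfl) (fun i => (𝔯 i.1).algebraMap_mem_O_of_mem Ma Ea (hxv i.1))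
    (fun i => span_O (𝔯 i.1) Ma Ea (hxv i.1) (he i.1)) (fun i => he0 i.1) (by
      intro w h1 h2 h3
      obtain ⟨i, rfl⟩ := hall w (fun z hz => h1 ⟨z, hz⟩) h2 h3
      exact ⟨⟨i, A.transcendental_res k Ma Ea (𝔯 i) (hk i) f y (hgen i) hΦ
        (fun z hz => h1 ⟨z, hz⟩)⟩, rfl⟩)
  rw [← key.2]
  have h1 : ∀ i : {i // good i}, Module.finrank
      (A.kaf k Ma f (A.map (IsScalarTower.toAlgHom K M Ma) y)) (Tg Ea i) =
      A.hgt k Ea f (A.map (IsScalarTower.toAlgHom K E Ea) (A.red (𝔯 i.1) y)) := fun i =>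
    A.finrank_res k Ma Ea (𝔯 i.1) (hk i.1) f y (hgen i.1) (hV i)
  have h2 : ∑ i : {i // good i}, e i.1 * Module.finrank
      (A.kaf k Ma f (A.map (IsScalarTower.toAlgHom K M Ma) y)) (Tg Ea i) =
      ∑ i : {i // good i}, e i.1 *
        A.hgt k Ea f (A.map (IsScalarTower.toAlgHom K E Ea) (A.red (𝔯 i.1) y)) :=
    Finset.sum_congr rfl (fun i _ => by rw [h1 i])
  rw [h2]
  have h3 : ∑ i : {i // good i}, e i.1 *
        A.hgt k Ea f (A.map (IsScalarTower.toAlgHom K E Ea) (A.red (𝔯 i.1) y)) =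
      ∑ i ∈ Finset.univ.filter good, e i *
        A.hgt k Ea f (A.map (IsScalarTower.toAlgHom K E Ea) (A.red (𝔯 i) y)) :=
    (Finset.sum_subtype (Finset.univ.filter good) (p := good) (by simp) (fun i => e i *
        A.hgt k Ea f (A.map (IsScalarTower.toAlgHom K E Ea) (A.red (𝔯 i) y)))).symm
  rw [h3]
  symm
  refine Finset.sum_subset (Finset.filter_subset _ _) (fun i _ hi => ?_)
  have hi' : ¬ good i := by simpa using hi
  rw [h0 i hi', Nat.mul_zero]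

end Main

end AVar

end Fermat.Agent.AVn
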