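import Fermat.Agent.AVn.Red
import Fermat.Agent.AVn.Const

/-!
# S26 (kb 66), block D: the constant field `k(a)(Φ)` inside Gauss valuation rings
-/

set_option autoImplicit false

noncomputable section

universe u

open IntermediateField
open scoped TensorProduct

namespace Fermat.Agent.AVn

open Fermat.Agent.BaseChangeFF Fermat.Agent.AVG

namespace AVar

variable {K : Type u} [Field K] {g : ℕ} (A : AVar K g)

section Ka

variable (k Ω : Type u) [Field k] [Field Ω] [Algebra k Ω] [Algebra K Ω] [Algebra A.F Ω]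
  [IsScalarTower K A.F Ω]

/-- the field `k(a)` -/
def ka : IntermediateField k Ω := IntermediateField.adjoin k (Set.range (algebraMap A.F Ω))

theorem mem_kaf_iff (f : A.F) (P : A.Pt Ω) (z : Ω) :
    z ∈ A.kaf k Ω f P ↔ z ∈ (A.ka k Ω)⟮A.ev (P - A.gpt Ω) f⟯ := by
  have h : A.kaf k Ω f P =
      ((A.ka k Ω)⟮A.ev (P - A.gpt Ω) f⟯).restrictScalars k := by
    rw [kaf, ka, IntermediateField.adjoin_adjoin_left, Set.insert_eq, Set.union_comm]
  rw [h, IntermediateField.mem_restrictScalars]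

theorem ka_le_kaf (f : A.F) (P : A.Pt Ω) : A.ka k Ω ≤ A.kaf k Ω f P :=
  IntermediateField.adjoin.mono _ _ _ (Set.subset_insert _ _)

theorem ev_mem_kaf (f : A.F) (P : A.Pt Ω) : A.ev (P - A.gpt Ω) f ∈ A.kaf k Ω f P :=
  IntermediateField.subset_adjoin _ _ (Set.mem_insert _ _)

variable [Algebra K k] [IsScalarTower K k Ω]

/-- `k ⊗ F → Ω` -/
def tens : k ⊗[K] A.F →ₐ[k] Ω :=
  Algebra.TensorProduct.lift (Algebra.ofId k Ω) (IsScalarTower.toAlgHom K A.F Ω)
    (fun _ _ => Commute.all _ _)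

@[simp] theorem tens_tmul (c : k) (x : A.F) :
    A.tens k Ω (c ⊗ₜ x) = algebraMap k Ω c * algebraMap A.F Ω x := rfl

theorem exists_tens {z : Ω} (hz : z ∈ Algebra.adjoin k (Set.range (algebraMap A.F Ω))) :
    ∃ t, A.tens k Ω t = z := by
  have h : Algebra.adjoin k (Set.range (algebraMap A.F Ω)) ≤ (A.tens k Ω).range := by
    rw [Algebra.adjoin_le_iff]
    rintro _ ⟨x, rfl⟩
    exact ⟨1 ⊗ₜ x, by simp⟩
  exact h hz

theorem tens_mem_ka (t : k ⊗[K] A.F) : A.tens k Ω t ∈ A.ka k Ω := by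
  induction t using TensorProduct.induction_on with
  | zero => rw [_root_.map_zero]; exact zero_mem _
  | add x y hx hy => rw [_root_.map_add]; exact add_mem hx hy
  | tmul c x =>
    rw [tens_tmul]
    exact mul_mem (IntermediateField.algebraMap_mem _ _) (IntermediateField.subset_adjoin _ _ ⟨x, rfl⟩)

theorem tens_injective {E : Type u} [Field E] [Algebra k E] [Algebra K E] [Algebra E Ω]
    [IsScalarTower K E Ω] [IsScalarTower k E Ω] [BC K E A.F Ω] :
    Function.Injective (A.tens k Ω) := by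
  rw [injective_iff_map_eq_zero]
  intro t ht
  let b := Module.Basis.ofVectorSpace K A.F
  let B := Algebra.TensorProduct.basis k b
  have h1 : LinearIndependent E (fun i => algebraMap A.F Ω (b i)) :=
    BC.linearIndependent (K₀ := K) (K := E) (F₀ := A.F) (F := Ω) b.linearIndependent
  have h2 : LinearIndependent k (fun i => algebraMap A.F Ω (b i)) :=
    h1.restrict_scalars (by
      intro x y hxy
      apply (algebraMap k E).injective
      simpa [Algebra.smul_def] using hxy)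
  have h3 : A.tens k Ω t = Finsupp.linearCombination k (fun i => algebraMap A.F Ω (b i))
      (B.repr t) := by
    conv_lhs => rw [← B.linearCombination_repr t]
    rw [Finsupp.linearCombination_apply, Finsupp.linearCombination_apply, map_finsuppSum]
    refine Finsupp.sum_congr fun i _ => ?_
    rw [map_smul]
    congr 1
    show A.tens k Ω (B i) = _
    rw [Algebra.TensorProduct.basis_apply, tens_tmul, map_one, one_mul]
  rw [h3] at ht
  have h4 := (linearIndependent_iff.mp h2) _ ht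
  exact (LinearEquiv.map_eq_zero_iff B.repr).mp h4

end Ka

section Main

variable (k : Type u) {M E : Type u} (Ma Ea : Type u) [Field k] [Field E] [Field M] [Field Ma]
  [Field Ea]
  [Algebra K k] [Algebra k E] [Algebra K E]
  [Algebra k M] [Algebra K M]
  [Algebra M Ma] [Algebra K Ma] [Algebra k Ma] [Algebra A.F Ma] [IsScalarTower K M Ma]
  [IsScalarTower k M Ma] [IsScalarTower K k Ma] [IsScalarTower K A.F Ma] [BC K M A.F Ma]
  [Algebra E Ea] [Algebra K Ea] [Algebra k Ea] [Algebra A.F Ea] [IsScalarTower K E Ea]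
  [IsScalarTower k E Ea] [IsScalarTower K k Ea] [IsScalarTower K A.F Ea] [BC K E A.F Ea]
  (𝔯 : RDk K M E)

omit [Algebra k E] [Algebra k M] [Algebra k Ma] [IsScalarTower k M Ma]
  [IsScalarTower K k Ma] [Algebra k Ea] [IsScalarTower k E Ea] [IsScalarTower K k Ea]
  [Algebra K k] [Field k] in
theorem red_gpt : A.red (𝔯.ext A.F Ma Ea) (A.gpt Ma) = A.gpt Ea :=
  A.red_map_field (𝔯.ext A.F Ma Ea) (IsScalarTower.toAlgHom K A.F Ma)
    (IsScalarTower.toAlgHom K A.F Ea)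
    (fun x => ⟨𝔯.algebraMap_mem_O x, 𝔯.res_algebraMap' x⟩) A.gen

omit [Algebra k E] [Algebra k M] [Algebra k Ma] [IsScalarTower k M Ma]
  [IsScalarTower K k Ma] [Algebra k Ea] [IsScalarTower k E Ea] [IsScalarTower K k Ea]
  [Algebra K k] [Field k] in
theorem red_ext (y : A.Pt M) : A.red (𝔯.ext A.F Ma Ea) (A.map (IsScalarTower.toAlgHom K M Ma) y) =
    A.map (IsScalarTower.toAlgHom K E Ea) (A.red 𝔯 y) :=
  A.red_map (𝔯.ext A.F Ma Ea) 𝔯 (IsScalarTower.toAlgHom K M Ma)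
    (IsScalarTower.toAlgHom K E Ea)
    (fun x => ⟨𝔯.algebraMap_mem_O_of_mem Ma Ea x.2, 𝔯.res_algebraMap_K Ma Ea x.2⟩) y

omit [Algebra k E] [Algebra k M] [Algebra k Ma] [IsScalarTower k M Ma]
  [IsScalarTower K k Ma] [Algebra k Ea] [IsScalarTower k E Ea] [IsScalarTower K k Ea]
  [Algebra K k] [Field k] in
/-- the residue of `Φ = f(y - a)` -/
theorem ev_ext (y : A.Pt M) (f : A.F) (hgen : Algebra.trdeg K
      (A.fd (A.map (IsScalarTower.toAlgHom K E Ea) (A.red 𝔯 y) - A.gpt Ea)) = g) :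
    ∃ h : A.ev (A.map (IsScalarTower.toAlgHom K M Ma) y - A.gpt Ma) f ∈ 𝔯.O A.F Ma Ea,
      𝔯.res ⟨_, h⟩ = A.ev (A.map (IsScalarTower.toAlgHom K E Ea) (A.red 𝔯 y) - A.gpt Ea) f := by
  have h1 : A.red (𝔯.ext A.F Ma Ea) (A.map (IsScalarTower.toAlgHom K M Ma) y - A.gpt Ma) =
      A.map (IsScalarTower.toAlgHom K E Ea) (A.red 𝔯 y) - A.gpt Ea := by
    rw [_root_.map_sub, A.red_gpt, A.red_ext]
  have h2 := A.ev_red (𝔯.ext A.F Ma Ea) (A.map (IsScalarTower.toAlgHom K M Ma) y - A.gpt Ma)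
    (by rw [h1]; exact hgen) f
  rw [h1] at h2
  exact h2

variable (hk : ∀ c : k, ∃ h : algebraMap k M c ∈ 𝔯.A, 𝔯.π ⟨_, h⟩ = algebraMap k E c)

include hk

omit [Algebra K k] [IsScalarTower K k Ma] [IsScalarTower K k Ea] in
theorem k_mem_O (c : k) : ∃ h : algebraMap k Ma c ∈ 𝔯.O A.F Ma Ea,
    𝔯.res ⟨_, h⟩ = algebraMap k Ea c := by
  obtain ⟨h1, e1⟩ := hk c
  have e2 := 𝔯.res_algebraMap_K (F₀ := A.F) Ma Ea h1
  rw [e1, ← IsScalarTower.algebraMap_apply k E Ea] at e2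
  have e3 : algebraMap M Ma (algebraMap k M c) = algebraMap k Ma c :=
    (IsScalarTower.algebraMap_apply k M Ma c).symm
  have h3 : algebraMap k Ma c ∈ 𝔯.O A.F Ma Ea := e3 ▸ 𝔯.algebraMap_mem_O_of_mem Ma Ea h1
  refine ⟨h3, ?_⟩
  rw [← e2]
  congr 1
  exact Subtype.ext e3.symm

/-- residues of elements of `k ⊗ F` -/
theorem tens_mem_O (t : k ⊗[K] A.F) : ∃ h : A.tens k Ma t ∈ 𝔯.O A.F Ma Ea,
    𝔯.res ⟨_, h⟩ = A.tens k Ea t := by
  induction t using TensorProduct.induction_on with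
  | zero =>
    refine ⟨by rw [_root_.map_zero]; exact zero_mem _, ?_⟩
    have : (⟨A.tens k Ma 0, by rw [_root_.map_zero]; exact zero_mem _⟩ : 𝔯.O A.F Ma Ea) = 0 :=
      Subtype.ext (_root_.map_zero _)
    rw [this, _root_.map_zero, _root_.map_zero]
  | add x y hx hy =>
    obtain ⟨h1, e1⟩ := hx
    obtain ⟨h2, e2⟩ := hy
    have h3 : A.tens k Ma (x + y) ∈ 𝔯.O A.F Ma Ea := by
      rw [_root_.map_add]; exact add_mem h1 h2
    refine ⟨h3, ?_⟩
    have : (⟨A.tens k Ma (x + y), h3⟩ : 𝔯.O A.F Ma Ea) = ⟨_, h1⟩ + ⟨_, h2⟩ :=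
      Subtype.ext (_root_.map_add _ _ _)
    rw [this, _root_.map_add, e1, e2, _root_.map_add]
  | tmul c x =>
    obtain ⟨h1, e1⟩ := A.k_mem_O k Ma Ea 𝔯 hk c
    have h3 : A.tens k Ma (c ⊗ₜ x) ∈ 𝔯.O A.F Ma Ea := by
      rw [tens_tmul]; exact mul_mem h1 (𝔯.algebraMap_mem_O x)
    refine ⟨h3, ?_⟩
    have : (⟨A.tens k Ma (c ⊗ₜ x), h3⟩ : 𝔯.O A.F Ma Ea) = ⟨_, h1⟩ * ⟨_, 𝔯.algebraMap_mem_O x⟩ :=
      Subtype.ext (tens_tmul _ _ _ _ _)
    rw [this, map_mul, e1, 𝔯.res_algebraMap', tens_tmul]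

theorem ka_mem_O {z : Ma} (hz : z ∈ A.ka k Ma) : z ∈ 𝔯.O A.F Ma Ea := by
  refine cst_mem_of_adjoin (𝔯.O A.F Ma Ea) 𝔯.res (𝔯.res_ker Ma Ea) _ (fun x hx => ?_) hz
  obtain ⟨t, rfl⟩ := A.exists_tens k Ma hx
  obtain ⟨h, e⟩ := A.tens_mem_O k Ma Ea 𝔯 hk t
  refine ⟨h, fun h0 => ?_⟩
  have h1 : A.tens k Ea t = 0 := by rw [← e]; exact h0
  have h2 : t = 0 := A.tens_injective k Ea (E := E) (by rw [h1, _root_.map_zero])
  rw [h2, _root_.map_zero]

end Main

end AVar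

end Fermat.Agent.AVn
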