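import Fermat.Agent.AVn.Ka
import Fermat.Agent.AVG.Disc

/-!
# S26 (kb 66), block D: residue fields of the constant field `k(a)(Φ)`
-/

set_option autoImplicit false

noncomputable section

universe u

open IntermediateField
open scoped TensorProduct

namespace Fermat.Agent.AVn

open Fermat.Agent.BaseChangeFF Fermat.Agent.AVG

section

variable {Ω κ : Type*} [Field Ω] [Field κ] (V : ValuationSubring Ω) (r : V →+* κ)

/-- the residue homomorphism of a field contained in a valuation ring -/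
def cstHom {k : Type*} [Field k] [Algebra k Ω] (N : IntermediateField k Ω)
    (hN : ∀ z ∈ N, z ∈ V) : N →+* κ where
  toFun x := r ⟨x, hN _ x.2⟩
  map_one' := map_one r
  map_mul' a b := map_mul r ⟨a, hN _ a.2⟩ ⟨b, hN _ b.2⟩
  map_zero' := map_zero r
  map_add' a b := map_add r ⟨a, hN _ a.2⟩ ⟨b, hN _ b.2⟩

/-- the range of the residue homomorphism of a field contained in a valuation ring -/
theorem cst_range {k : Type*} [Field k] [Algebra k Ω] [Algebra k κ]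
    (hk : ∀ c : k, ∃ h : algebraMap k Ω c ∈ V, r ⟨_, h⟩ = algebraMap k κ c)
    (S : Set Ω) (T : Set κ)
    (hN : ∀ z ∈ adjoin k S, z ∈ V)
    (hT1 : ∀ x ∈ S, ∃ hx : x ∈ V, r ⟨x, hx⟩ ∈ T)
    (hT2 : ∀ t ∈ T, ∃ x ∈ S, ∃ hx : x ∈ V, r ⟨x, hx⟩ = t) (w : κ) :
    w ∈ adjoin k T ↔ w ∈ (cstHom V r (adjoin k S) hN).fieldRange := by
  constructor
  · have h1 : Subfield.closure (Set.range (algebraMap k κ) ∪ T) ≤
        (cstHom V r (adjoin k S) hN).fieldRange := by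
      rw [Subfield.closure_le]
      rintro t (⟨c, rfl⟩ | ht)
      · obtain ⟨h, e⟩ := hk c
        exact ⟨algebraMap k (adjoin k S) c, e⟩
      · obtain ⟨x, hxS, hxV, e⟩ := hT2 t ht
        exact ⟨⟨x, subset_adjoin _ _ hxS⟩, e⟩
    intro hw
    exact h1 hw
  · rintro ⟨⟨z, hz⟩, rfl⟩
    show r ⟨z, hN z hz⟩ ∈ _
    have key : ∀ z (hz : z ∈ Subfield.closure (Set.range (algebraMap k Ω) ∪ S)),
        ∀ h : z ∈ V, r ⟨z, h⟩ ∈ adjoin k T := by
      intro z hz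
      induction hz using Subfield.closure_induction with
      | mem x hx =>
        intro h
        rcases hx with ⟨c, rfl⟩ | hx
        · obtain ⟨h', e⟩ := hk c
          rw [e]
          exact IntermediateField.algebraMap_mem _ _
        · obtain ⟨h', e⟩ := hT1 x hx
          exact subset_adjoin _ _ e
      | one =>
        intro h
        have : (⟨1, h⟩ : V) = 1 := rfl
        rw [this, map_one]; exact one_mem _
      | add x y hx hy hx' hy' =>
        intro h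
        have h1 := hx' (hN _ hx)
        have h2 := hy' (hN _ hy)
        have : (⟨x + y, h⟩ : V) = ⟨x, hN _ hx⟩ + ⟨y, hN _ hy⟩ := rfl
        rw [this, map_add]; exact add_mem h1 h2
      | mul x y hx hy hx' hy' =>
        intro h
        have h1 := hx' (hN _ hx)
        have h2 := hy' (hN _ hy)
        have : (⟨x * y, h⟩ : V) = ⟨x, hN _ hx⟩ * ⟨y, hN _ hy⟩ := rfl
        rw [this, map_mul]; exact mul_mem h1 h2
      | neg x hx hx' =>
        intro h
        have h1 := hx' (hN _ hx)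
        have : (⟨-x, h⟩ : V) = -⟨x, hN _ hx⟩ := rfl
        rw [this, map_neg]; exact neg_mem h1
      | inv x hx hx' =>
        intro h
        have h1 := hx' (hN _ hx)
        by_cases h0 : x = 0
        · subst h0
          have : (⟨(0 : Ω)⁻¹, h⟩ : V) = 0 := Subtype.ext inv_zero
          rw [this, map_zero]; exact zero_mem _
        · have h2 : r ⟨x, hN _ hx⟩ * r ⟨x⁻¹, h⟩ = 1 := by
            rw [← map_mul, ← map_one r]
            congr 1
            exact Subtype.ext (mul_inv_cancel₀ h0)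
          rw [eq_inv_of_mul_eq_one_right h2]
          exact inv_mem h1
    exact key z hz _

/-- transcendence over isomorphic fields -/
theorem cst_transcendental_iff {k₁ k₂ κ : Type*} [Field k₁] [Field k₂] [Field κ] [Algebra k₁ κ]
    [Algebra k₂ κ] (e : k₁ ≃+* k₂) (he : ∀ x, algebraMap k₂ κ (e x) = algebraMap k₁ κ x) (X : κ) :
    Transcendental k₂ X ↔ Transcendental k₁ X := by
  rw [Transcendental, Transcendental, not_iff_not]
  constructor
  · rintro ⟨p, hp, h⟩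
    refine ⟨p.map (e.symm : k₂ →+* k₁), ?_, ?_⟩
    · rwa [Ne, Polynomial.map_eq_zero]
    · rw [Polynomial.aeval_def, Polynomial.eval₂_map]
      rw [Polynomial.aeval_def] at h
      have : (algebraMap k₁ κ).comp (e.symm : k₂ →+* k₁) = algebraMap k₂ κ := by
        ext x
        show algebraMap k₁ κ (e.symm x) = _
        rw [← he, e.apply_symm_apply]
      rw [this, h]
  · rintro ⟨p, hp, h⟩
    refine ⟨p.map (e : k₁ →+* k₂), ?_, ?_⟩
    · rwa [Ne, Polynomial.map_eq_zero]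
    · rw [Polynomial.aeval_def, Polynomial.eval₂_map]
      rw [Polynomial.aeval_def] at h
      have : (algebraMap k₂ κ).comp (e : k₁ →+* k₂) = algebraMap k₁ κ := by
        ext x
        exact he x
      rw [this, h]

end

namespace AVar

variable {K : Type u} [Field K] {g : ℕ} (A : AVar K g)

section Main

variable (k : Type u) {M E : Type u} (Ma Ea : Type u) [Field k] [Field E] [Field M] [Field Ma]
  [Field Ea]
  [Algebra K k] [Algebra k E] [Algebra K E]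
  [Algebra k M] [Algebra K M]
  [Algebra M Ma] [Algebra K Ma] [Algebra k Ma] [Algebra A.F Ma] [IsScalarTower K M Ma]
  [IsScalarTower k M Ma] [IsScalarTower K k Ma] [IsScalarTower K A.F Ma] [BC K M A.F Ma]
  [Algebra E Ea] [Algebra K Ea] [Algebra k Ea] [Algebra A.F Ea] [IsScalarTower K E Ea]
  [IsScalarTower k E Ea] [IsScalarTower K k Ea] [IsScalarTower K A.F Ea] [BC K E A.F Ea]
  (𝔯 : RDk K M E)
  (hk : ∀ c : k, ∃ h : algebraMap k M c ∈ 𝔯.A, 𝔯.π ⟨_, h⟩ = algebraMap k E c)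

include hk

/-- the residue field of `k(a)` is `k(a)` -/
theorem ka_range (w : Ea) : w ∈ A.ka k Ea ↔
    w ∈ (cstHom (𝔯.O A.F Ma Ea) 𝔯.res (A.ka k Ma)
      (fun _ hz => A.ka_mem_O k Ma Ea 𝔯 hk hz)).fieldRange := by
  refine cst_range (𝔯.O A.F Ma Ea) 𝔯.res (A.k_mem_O k Ma Ea 𝔯 hk) _ _
    (fun _ hz => A.ka_mem_O k Ma Ea 𝔯 hk hz) ?_ ?_ w
  · rintro _ ⟨x, rfl⟩
    exact ⟨𝔯.algebraMap_mem_O x, x, (𝔯.res_algebraMap' x).symm⟩
  · rintro _ ⟨x, rfl⟩
    exact ⟨_, ⟨x, rfl⟩, 𝔯.algebraMap_mem_O x, 𝔯.res_algebraMap' x⟩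

/-- transcendence over `k(a)` can be tested with the embedding `k(a) → Ea` given by residues. -/
theorem transcendental_ka_iff (X : Ea) : Transcendental (A.ka k Ea) X ↔
    @Transcendental (A.ka k Ma) Ea _ _ (cstHom (𝔯.O A.F Ma Ea) 𝔯.res (A.ka k Ma)
      (fun _ hz => A.ka_mem_O k Ma Ea 𝔯 hk hz)).toAlgebra X := by
  set σ : A.ka k Ma →+* Ea := cstHom (𝔯.O A.F Ma Ea) 𝔯.res (A.ka k Ma)
      (fun _ hz => A.ka_mem_O k Ma Ea 𝔯 hk hz) with hσ
  letI := σ.toAlgebra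
  have hr : ∀ w : Ea, w ∈ A.ka k Ea ↔ w ∈ σ.fieldRange := A.ka_range k Ma Ea 𝔯 hk
  let e : A.ka k Ma ≃+* A.ka k Ea := RingEquiv.ofBijective
    (σ.codRestrict (A.ka k Ea) (fun x => (hr _).mpr ⟨x, rfl⟩)) (by
      refine ⟨RingHom.injective _, ?_⟩
      rintro ⟨z, hz⟩
      obtain ⟨x, hx⟩ := (hr z).mp hz
      exact ⟨x, Subtype.ext hx⟩)
  have he : ∀ x, algebraMap (A.ka k Ea) Ea (e x) = algebraMap (A.ka k Ma) Ea x := fun _ => rfl
  exact cst_transcendental_iff e he X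

variable (f : A.F) (y : A.Pt M) (hgen : Algebra.trdeg K
      (A.fd (A.map (IsScalarTower.toAlgHom K E Ea) (A.red 𝔯 y) - A.gpt Ea)) = g)

include hgen

/-- if the residue of `Φ` is transcendental over `k(a)` then `k(a)(Φ)` is in the valuation ring -/
theorem kaf_mem_O (ht : Transcendental (A.ka k Ea)
      (A.ev (A.map (IsScalarTower.toAlgHom K E Ea) (A.red 𝔯 y) - A.gpt Ea) f)) {z : Ma}
    (hz : z ∈ A.kaf k Ma f (A.map (IsScalarTower.toAlgHom K M Ma) y)) : z ∈ 𝔯.O A.F Ma Ea := by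
  rw [mem_kaf_iff] at hz
  set σ : A.ka k Ma →+* Ea := cstHom (𝔯.O A.F Ma Ea) 𝔯.res (A.ka k Ma)
      (fun _ hz => A.ka_mem_O k Ma Ea 𝔯 hk hz) with hσ
  letI := σ.toAlgebra
  obtain ⟨h, e⟩ := A.ev_ext Ma Ea 𝔯 y f hgen
  rw [A.transcendental_ka_iff k Ma Ea 𝔯 hk, ← e] at ht
  exact cst_mem_adjoin_simple (k₁ := A.ka k Ma) (𝔯.O A.F Ma Ea) 𝔯.res
    (fun c => ⟨A.ka_mem_O k Ma Ea 𝔯 hk c.2, rfl⟩) (𝔯.res_ker Ma Ea) h ht hz

/-- conversely -/
theorem transcendental_res (hΦ : Transcendental (A.ka k Ma)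
      (A.ev (A.map (IsScalarTower.toAlgHom K M Ma) y - A.gpt Ma) f))
    (hV : ∀ z ∈ A.kaf k Ma f (A.map (IsScalarTower.toAlgHom K M Ma) y), z ∈ 𝔯.O A.F Ma Ea) :
    Transcendental (A.ka k Ea)
      (A.ev (A.map (IsScalarTower.toAlgHom K E Ea) (A.red 𝔯 y) - A.gpt Ea) f) := by
  set σ : A.ka k Ma →+* Ea := cstHom (𝔯.O A.F Ma Ea) 𝔯.res (A.ka k Ma)
      (fun _ hz => A.ka_mem_O k Ma Ea 𝔯 hk hz) with hσ
  letI := σ.toAlgebra
  obtain ⟨h, e⟩ := A.ev_ext Ma Ea 𝔯 y f hgen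
  rw [A.transcendental_ka_iff k Ma Ea 𝔯 hk, ← e]
  refine cst_transcendental_res (k₁ := A.ka k Ma) (𝔯.O A.F Ma Ea) 𝔯.res
    (fun c => ⟨A.ka_mem_O k Ma Ea 𝔯 hk c.2, rfl⟩) h hΦ (fun z hz => hV z ?_)
  rwa [mem_kaf_iff]

/-- the residue field of `k(a)(Φ)` -/
theorem kaf_range (hV : ∀ z ∈ A.kaf k Ma f (A.map (IsScalarTower.toAlgHom K M Ma) y),
      z ∈ 𝔯.O A.F Ma Ea) (w : Ea) :
    w ∈ A.kaf k Ea f (A.map (IsScalarTower.toAlgHom K E Ea) (A.red 𝔯 y)) ↔
    w ∈ (cstHom (𝔯.O A.F Ma Ea) 𝔯.res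
      (A.kaf k Ma f (A.map (IsScalarTower.toAlgHom K M Ma) y)) hV).fieldRange := by
  obtain ⟨h, e⟩ := A.ev_ext Ma Ea 𝔯 y f hgen
  refine cst_range (𝔯.O A.F Ma Ea) 𝔯.res (A.k_mem_O k Ma Ea 𝔯 hk) _ _ hV ?_ ?_ w
  · rintro _ (rfl | ⟨x, rfl⟩)
    · exact ⟨h, Or.inl e⟩
    · exact ⟨𝔯.algebraMap_mem_O x, Or.inr ⟨x, (𝔯.res_algebraMap' x).symm⟩⟩
  · rintro _ (rfl | ⟨x, rfl⟩)
    · exact ⟨_, Or.inl rfl, h, e⟩
    · exact ⟨_, Or.inr ⟨x, rfl⟩, 𝔯.algebraMap_mem_O x, 𝔯.res_algebraMap' x⟩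

/-- the residue degree is the height -/
theorem finrank_res (hV : ∀ z ∈ A.kaf k Ma f (A.map (IsScalarTower.toAlgHom K M Ma) y),
      z ∈ 𝔯.O A.F Ma Ea) :
    @Module.finrank _ Ea _ _ (cstHom (𝔯.O A.F Ma Ea) 𝔯.res
      (A.kaf k Ma f (A.map (IsScalarTower.toAlgHom K M Ma) y)) hV).toAlgebra.toModule =
    A.hgt k Ea f (A.map (IsScalarTower.toAlgHom K E Ea) (A.red 𝔯 y)) :=
  cst_finrank _ _ (A.kaf_range k Ma Ea 𝔯 hk f y hgen hV)

end Main

end AVar

end Fermat.Agent.AVn
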