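import Fermat.Agent.AVn.StarCore
import Fermat.Agent.AVH.BC

/-!
# S26 (kb 66), block D5b: the identity `(*)`
-/

set_option autoImplicit false

noncomputable section

universe u

open IntermediateField

namespace Fermat.Agent.AVn

open Fermat.Agent.BaseChangeFF Fermat.Agent.AVG Fermat.Agent.AVH

namespace AVar

variable {K : Type u} [Field K] {g : ℕ} (A : AVar K g)

section Main

variable (k : Type u) {E : Type u} (M Ma Ea : Type u) [Field k] [Field E] [Field M] [Field Ma]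
  [Field Ea]
  [Algebra K k] [Algebra k E] [Algebra K E] [IsScalarTower K k E]
  [Algebra k M] [Algebra K M] [Algebra E M] [Algebra (Cp E) M]
  [IsScalarTower k E M] [IsScalarTower k (Cp E) M] [IsScalarTower K k M] [IsScalarTower K E M]
  [IsScalarTower K (Cp E) M] [BC k E (Cp E) M]
  [Algebra M Ma] [Algebra K Ma] [Algebra k Ma] [Algebra A.F Ma] [IsScalarTower K M Ma]
  [IsScalarTower k M Ma] [IsScalarTower K k Ma] [IsScalarTower K A.F Ma] [BC K M A.F Ma]
  [Algebra E Ea] [Algebra K Ea] [Algebra k Ea] [Algebra A.F Ea] [IsScalarTower K E Ea]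
  [IsScalarTower k E Ea] [IsScalarTower K k Ea] [IsScalarTower K A.F Ea] [BC K E A.F Ea]

/-- the point `P₁ + Q₂` -/
def ypt (P Q : A.Pt E) : A.Pt M :=
  A.map (IsScalarTower.toAlgHom K E M) P +
    A.map (IsScalarTower.toAlgHom K (Cp E) M) (A.map ((Cp.equiv K E).toAlgHom) Q)

/-- identity `(*)`, the zeros being the diagonal places and the poles being given -/
theorem star_of_poles {u : E} (hu : Transcendental k u) [FiniteDimensional k⟮u⟯ E]
    [IsGalois k⟮u⟯ E] (f : A.F) (P Q : A.Pt E)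
    {ι' : Type*} [Fintype ι'] (𝔯' : ι' → RDk K M E)
    (hk' : ∀ i, ∀ c : k, ∃ h : algebraMap k M c ∈ (𝔯' i).A, (𝔯' i).π ⟨_, h⟩ = algebraMap k E c)
    (hinj' : Function.Injective (fun i => (𝔯' i).A))
    [∀ i, IsDiscreteValuationRing (𝔯' i).A]
    (hgen : ∀ P : A.Pt E, Algebra.trdeg K
      (A.fd (A.map (IsScalarTower.toAlgHom K E Ea) P - A.gpt Ea)) = g)
    (h0 : ∀ P : A.Pt E, ¬ Transcendental (A.ka k Ea)
      (A.ev (A.map (IsScalarTower.toAlgHom K E Ea) P - A.gpt Ea) f) →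
      A.hgt k Ea f (A.map (IsScalarTower.toAlgHom K E Ea) P) = 0)
    (e' : ι' → ℕ) (he0' : ∀ i, e' i ≠ 0) (hxv' : ∀ i, (lamM M u)⁻¹ ∈ (𝔯' i).A)
    (he' : ∀ i, Ideal.span {(⟨(lamM M u)⁻¹, hxv' i⟩ : (𝔯' i).A)} =
      IsLocalRing.maximalIdeal (𝔯' i).A ^ e' i)
    (hall : Transcendental (A.ka k Ma)
        (A.ev (A.map (IsScalarTower.toAlgHom K M Ma) (A.ypt M P Q) - A.gpt Ma) f) →
      ∀ V : ValuationSubring Ma,
      (∀ z ∈ A.kaf k Ma f (A.map (IsScalarTower.toAlgHom K M Ma) (A.ypt M P Q)), z ∈ V) →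
      algebraMap M Ma (lamM M u) ∈ V → (algebraMap M Ma (lamM M u))⁻¹ ∉ V →
      ∃ s, V = (rz K M hu s).O A.F Ma Ea)
    (hall' : Transcendental (A.ka k Ma)
        (A.ev (A.map (IsScalarTower.toAlgHom K M Ma) (A.ypt M P Q) - A.gpt Ma) f) →
      ∀ V : ValuationSubring Ma,
      (∀ z ∈ A.kaf k Ma f (A.map (IsScalarTower.toAlgHom K M Ma) (A.ypt M P Q)), z ∈ V) →
      algebraMap M Ma (lamM M u) ∉ V → ∃ i, V = (𝔯' i).O A.F Ma Ea) :
    ∑ s : E ≃ₐ[k⟮u⟯] E, A.hgt k Ea f (A.map (IsScalarTower.toAlgHom K E Ea)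
      (P + A.map ((s.toAlgHom.restrictScalars k).restrictScalars K) Q)) =
    ∑ i, e' i * A.hgt k Ea f
      (A.map (IsScalarTower.toAlgHom K E Ea) (A.red (𝔯' i) (A.ypt M P Q))) := by
  let u₂ : Cp E := u
  haveI : FiniteDimensional k⟮u₂⟯ (Cp E) := inferInstanceAs (FiniteDimensional k⟮u⟯ E)
  have key := A.star_core k Ma Ea (fun s : E ≃ₐ[k⟮u⟯] E => rz K M hu s) 𝔯'
    (fun s c => ⟨rz_mem_alg hu s c, rz_π_alg hu s c⟩) hk' (rz_injective K M hu) hinj' f
    (A.ypt M P Q) hgen h0 (lamM M u)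
    (fun hΦ hx => finiteDimensional_kappa_adjoin (E₁ := E) (E₂ := Cp E) (M := M) (K := K)
      (F₀ := A.F) u u₂ hΦ hx)
    (fun _ => 1) (fun _ => one_ne_zero) (fun s => lamM_mem hu s)
    (fun s => by rw [pow_one]; exact (rz_maximalIdeal hu s).symm) e' he0' hxv' he' hall hall'
  rw [← key]
  refine Finset.sum_congr rfl (fun s _ => ?_)
  rw [one_mul, ypt, red_rz]

end Main

end AVar

end Fermat.Agent.AVn
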