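import Fermat.Agent.AVn.Count
import Fermat.Agent.AVn.B1fin

/-!
# S26 (kb 66), block D5b: zeros = poles with heights
-/

set_option autoImplicit false

noncomputable section

universe u

open IntermediateField

namespace Fermat.Agent.AVn

open Fermat.Agent.BaseChangeFF Fermat.Agent.AVG

namespace AVar

variable {K : Type u} [Field K] {g : ℕ} (A : AVar K g)

section Main

variable (k : Type u) {M E : Type u} (Ma Ea : Type u) [Field k] [Field E] [Field M] [Field Ma]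
  [Field Ea]
  [Algebra K k] [Algebra k E] [Algebra K E]
  [Algebra k M] [Algebra K M]
  [Algebra M Ma] [Algebra K Ma] [Algebra k Ma] [Algebra A.F Ma] [IsScalarTower K M Ma]
  [IsScalarTower k M Ma] [IsScalarTower K k Ma] [IsScalarTower K A.F Ma] [BC K M A.F Ma]
  [Algebra E Ea] [Algebra K Ea] [Algebra k Ea] [Algebra A.F Ea] [IsScalarTower K E Ea]
  [IsScalarTower k E Ea] [IsScalarTower K k Ea] [IsScalarTower K A.F Ea] [BC K E A.F Ea]

/-- In the degenerate cases all heights vanish. -/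
theorem hgt_eq_zero_of_degenerate (𝔯 : RDk K M E)
    (hk : ∀ c : k, ∃ h : algebraMap k M c ∈ 𝔯.A, 𝔯.π ⟨_, h⟩ = algebraMap k E c)
    (f : A.F) (y : A.Pt M)
    (hgen : Algebra.trdeg K
      (A.fd (A.map (IsScalarTower.toAlgHom K E Ea) (A.red 𝔯 y) - A.gpt Ea)) = g)
    (h0 : ¬ Transcendental (A.ka k Ea)
      (A.ev (A.map (IsScalarTower.toAlgHom K E Ea) (A.red 𝔯 y) - A.gpt Ea) f) →
      A.hgt k Ea f (A.map (IsScalarTower.toAlgHom K E Ea) (A.red 𝔯 y)) = 0)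
    (x : M) (hx : x⁻¹ ∉ 𝔯.A)
    (hdeg : ¬ (Transcendental (A.ka k Ma)
        (A.ev (A.map (IsScalarTower.toAlgHom K M Ma) y - A.gpt Ma) f) ∧
      Transcendental (A.kaf k Ma f (A.map (IsScalarTower.toAlgHom K M Ma) y))
        (algebraMap M Ma x))) :
    A.hgt k Ea f (A.map (IsScalarTower.toAlgHom K E Ea) (A.red 𝔯 y)) = 0 := by
  apply h0
  intro ht
  apply hdeg
  constructor
  · set σ : A.ka k Ma →+* Ea := cstHom (𝔯.O A.F Ma Ea) 𝔯.res (A.ka k Ma)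
      (fun _ hz => A.ka_mem_O k Ma Ea 𝔯 hk hz) with hσ
    letI := σ.toAlgebra
    obtain ⟨h, e⟩ := A.ev_ext Ma Ea 𝔯 y f hgen
    rw [A.transcendental_ka_iff k Ma Ea 𝔯 hk, ← e] at ht
    exact cst_transcendental (k₁ := A.ka k Ma) (𝔯.O A.F Ma Ea) 𝔯.res
      (fun c => ⟨A.ka_mem_O k Ma Ea 𝔯 hk c.2, rfl⟩) h ht
  · refine transcendental_of_mem_nonunits (𝔯.O A.F Ma Ea)
      (fun c => A.kaf_mem_O k Ma Ea 𝔯 hk f y hgen ht c.2) ?_
    rw [← map_inv₀, 𝔯.mem_iff]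
    exact hx

/-- **Zeros = poles** with heights. -/
theorem star_core {ι ι' : Type*} [Fintype ι] [Fintype ι'] (𝔯 : ι → RDk K M E) (𝔯' : ι' → RDk K M E)
    (hk : ∀ i, ∀ c : k, ∃ h : algebraMap k M c ∈ (𝔯 i).A, (𝔯 i).π ⟨_, h⟩ = algebraMap k E c)
    (hk' : ∀ i, ∀ c : k, ∃ h : algebraMap k M c ∈ (𝔯' i).A, (𝔯' i).π ⟨_, h⟩ = algebraMap k E c)
    (hinj : Function.Injective (fun i => (𝔯 i).A)) (hinj' : Function.Injective (fun i => (𝔯' i).A))
    [∀ i, IsDiscreteValuationRing (𝔯 i).A] [∀ i, IsDiscreteValuationRing (𝔯' i).A]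
    (f : A.F) (y : A.Pt M)
    (hgen : ∀ P : A.Pt E, Algebra.trdeg K
      (A.fd (A.map (IsScalarTower.toAlgHom K E Ea) P - A.gpt Ea)) = g)
    (h0 : ∀ P : A.Pt E, ¬ Transcendental (A.ka k Ea)
      (A.ev (A.map (IsScalarTower.toAlgHom K E Ea) P - A.gpt Ea) f) →
      A.hgt k Ea f (A.map (IsScalarTower.toAlgHom K E Ea) P) = 0)
    (x : M)
    (hfin : Transcendental (A.ka k Ma)
        (A.ev (A.map (IsScalarTower.toAlgHom K M Ma) y - A.gpt Ma) f) →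
      Transcendental (A.kaf k Ma f (A.map (IsScalarTower.toAlgHom K M Ma) y))
        (algebraMap M Ma x) →
      FiniteDimensional
        (A.kaf k Ma f (A.map (IsScalarTower.toAlgHom K M Ma) y))⟮algebraMap M Ma x⟯ Ma)
    (e : ι → ℕ) (he0 : ∀ i, e i ≠ 0) (hxv : ∀ i, x ∈ (𝔯 i).A)
    (he : ∀ i, Ideal.span {(⟨x, hxv i⟩ : (𝔯 i).A)} = IsLocalRing.maximalIdeal (𝔯 i).A ^ e i)
    (e' : ι' → ℕ) (he0' : ∀ i, e' i ≠ 0) (hxv' : ∀ i, x⁻¹ ∈ (𝔯' i).A)
    (he' : ∀ i, Ideal.span {(⟨x⁻¹, hxv' i⟩ : (𝔯' i).A)} = IsLocalRing.maximalIdeal (𝔯' i).A ^ e' i)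
    (hall : Transcendental (A.ka k Ma)
        (A.ev (A.map (IsScalarTower.toAlgHom K M Ma) y - A.gpt Ma) f) → ∀ V : ValuationSubring Ma,
      (∀ z ∈ A.kaf k Ma f (A.map (IsScalarTower.toAlgHom K M Ma) y), z ∈ V) →
      algebraMap M Ma x ∈ V → (algebraMap M Ma x)⁻¹ ∉ V → ∃ i, V = (𝔯 i).O A.F Ma Ea)
    (hall' : Transcendental (A.ka k Ma)
        (A.ev (A.map (IsScalarTower.toAlgHom K M Ma) y - A.gpt Ma) f) → ∀ V : ValuationSubring Ma,
      (∀ z ∈ A.kaf k Ma f (A.map (IsScalarTower.toAlgHom K M Ma) y), z ∈ V) →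
      algebraMap M Ma x ∉ V → ∃ i, V = (𝔯' i).O A.F Ma Ea) :
    ∑ i, e i * A.hgt k Ea f (A.map (IsScalarTower.toAlgHom K E Ea) (A.red (𝔯 i) y)) =
      ∑ i, e' i * A.hgt k Ea f (A.map (IsScalarTower.toAlgHom K E Ea) (A.red (𝔯' i) y)) := by
  have hO : ∀ 𝔰 𝔰' : RDk K M E, 𝔰.O A.F Ma Ea = 𝔰'.O A.F Ma Ea → 𝔰.A = 𝔰'.A := by
    intro 𝔰 𝔰' h
    ext a
    rw [← 𝔰.mem_iff (F₀ := A.F) Ma Ea, h, 𝔰'.mem_iff]
  have hnu : ∀ (𝔰 : RDk K M E) [IsDiscreteValuationRing 𝔰.A] (x : M) (hx : x ∈ 𝔰.A) (e : ℕ),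
      e ≠ 0 → Ideal.span {(⟨x, hx⟩ : 𝔰.A)} = IsLocalRing.maximalIdeal 𝔰.A ^ e → x⁻¹ ∉ 𝔰.A := by
    intro 𝔰 _ x hx e he0 he hinv
    have h1 : Ideal.span {(⟨x, hx⟩ : 𝔰.A)} ≤ IsLocalRing.maximalIdeal 𝔰.A := by
      rw [he]; exact Ideal.pow_le_self he0
    have h2 : (⟨x, hx⟩ : 𝔰.A) ∈ IsLocalRing.maximalIdeal 𝔰.A :=
      h1 (Ideal.mem_span_singleton_self _)
    rw [IsLocalRing.mem_maximalIdeal, mem_nonunits_iff] at h2
    by_cases hx0 : x = 0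
    · have h3 : (IsLocalRing.maximalIdeal 𝔰.A) ^ e = ⊥ := by
        rw [← he]
        have : (⟨x, hx⟩ : 𝔰.A) = 0 := Subtype.ext hx0
        rw [this, Ideal.span_singleton_eq_bot]
      have h4 := (pow_eq_zero_iff he0).mp (h3.trans Ideal.zero_eq_bot.symm)
      exact IsDiscreteValuationRing.not_a_field 𝔰.A h4
    · exact h2 (IsUnit.of_mul_eq_one ⟨x⁻¹, hinv⟩ (Subtype.ext (mul_inv_cancel₀ hx0)))
  by_cases hcase : Transcendental (A.ka k Ma)
        (A.ev (A.map (IsScalarTower.toAlgHom K M Ma) y - A.gpt Ma) f) ∧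
      Transcendental (A.kaf k Ma f (A.map (IsScalarTower.toAlgHom K M Ma) y))
        (algebraMap M Ma x)
  · obtain ⟨hΦ, hx⟩ := hcase
    haveI := hfin hΦ hx
    have hxi : Transcendental (A.kaf k Ma f (A.map (IsScalarTower.toAlgHom K M Ma) y))
        (algebraMap M Ma x⁻¹) := by
      rw [map_inv₀]
      exact fun ha => hx (by simpa using ha.inv)
    have heq : (A.kaf k Ma f (A.map (IsScalarTower.toAlgHom K M Ma) y))⟮algebraMap M Ma x⁻¹⟯ =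
        (A.kaf k Ma f (A.map (IsScalarTower.toAlgHom K M Ma) y))⟮algebraMap M Ma x⟯ := by
      rw [map_inv₀]
      apply le_antisymm
      · rw [adjoin_simple_le_iff]
        exact inv_mem (mem_adjoin_simple_self _ _)
      · rw [adjoin_simple_le_iff]
        have := inv_mem (mem_adjoin_simple_self
          (A.kaf k Ma f (A.map (IsScalarTower.toAlgHom K M Ma) y)) (algebraMap M Ma x)⁻¹)
        rwa [inv_inv] at this
    haveI : FiniteDimensional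
        (A.kaf k Ma f (A.map (IsScalarTower.toAlgHom K M Ma) y))⟮algebraMap M Ma x⁻¹⟯ Ma := by
      rw [heq]; infer_instance
    have c1 := A.count k Ma Ea 𝔯 hk (fun i j h => hinj (hO _ _ h)) f y (fun i => hgen _)
      (fun i => h0 _) hΦ x hx e he0 hxv he (fun V h1 h2 h3 => hall hΦ V h1 h2 h3)
    have c2 := A.count k Ma Ea 𝔯' hk' (fun i j h => hinj' (hO _ _ h)) f y (fun i => hgen _)
      (fun i => h0 _) hΦ x⁻¹ hxi e' he0' hxv' he' (fun V h1 h2 h3 => hall' hΦ V h1 (by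
        rw [map_inv₀, inv_inv] at h3
        exact h3))
    rw [c1, c2, heq]
  · have hcase' : ¬ (Transcendental (A.ka k Ma)
        (A.ev (A.map (IsScalarTower.toAlgHom K M Ma) y - A.gpt Ma) f) ∧
      Transcendental (A.kaf k Ma f (A.map (IsScalarTower.toAlgHom K M Ma) y))
        (algebraMap M Ma x⁻¹)) := by
      rintro ⟨h1, h2⟩
      refine hcase ⟨h1, fun ha => h2 ?_⟩
      rw [map_inv₀]
      exact ha.inv
    have z1 : ∀ i, A.hgt k Ea f (A.map (IsScalarTower.toAlgHom K E Ea) (A.red (𝔯 i) y)) = 0 :=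
      fun i => A.hgt_eq_zero_of_degenerate k Ma Ea (𝔯 i) (hk i) f y (hgen _) (h0 _) x
        (hnu (𝔯 i) x (hxv i) (e i) (he0 i) (he i)) hcase
    have z2 : ∀ i, A.hgt k Ea f (A.map (IsScalarTower.toAlgHom K E Ea) (A.red (𝔯' i) y)) = 0 :=
      fun i => A.hgt_eq_zero_of_degenerate k Ma Ea (𝔯' i) (hk' i) f y (hgen _) (h0 _) x⁻¹
        (hnu (𝔯' i) x⁻¹ (hxv' i) (e' i) (he0' i) (he' i)) hcase'
    rw [Finset.sum_eq_zero (fun i _ => by rw [z1 i, Nat.mul_zero]),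
      Finset.sum_eq_zero (fun i _ => by rw [z2 i, Nat.mul_zero])]

end Main

end AVar

end Fermat.Agent.AVn
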