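import Fermat.Agent.AVn.StarGen
import Fermat.Agent.AVD4.All
import Fermat.Agent.BaseChangeFF.Tensor

/-!
# S26 (kb 66), block D5b: the identity `(*)`, final form
-/

set_option autoImplicit false

noncomputable section

universe u

open IntermediateField

namespace Fermat.Agent.AVn

open Fermat.Agent.BaseChangeFF Fermat.Agent.AVG Fermat.Agent.AVH Fermat.Agent.AVD4
  Fermat.Agent.AVDc Fermat.Agent.FunField

namespace AVar

variable {K : Type u} [Field K] {g : ℕ} (A : AVar K g)

section Main

variable (k : Type u) {E : Type u} (M Ma Ea : Type u) [Field k] [Field E] [Field M] [Field Ma]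
  [Field Ea]
  [Algebra K k] [Algebra k E] [Algebra K E] [IsScalarTower K k E]
  [Algebra k M] [Algebra K M] [Algebra E M] [Algebra (Cp E) M]
  [IsScalarTower k E M] [IsScalarTower k (Cp E) M] [IsScalarTower K k M] [IsScalarTower K E M]
  [IsScalarTower K (Cp E) M] [BC k E (Cp E) M]
  [Algebra M Ma] [Algebra K Ma] [Algebra k Ma] [Algebra A.F Ma] [IsScalarTower K M Ma]
  [IsScalarTower k M Ma] [IsScalarTower K k Ma] [IsScalarTower K A.F Ma] [BC K M A.F Ma]
  [Algebra E Ea] [Algebra K Ea] [Algebra k Ea] [Algebra A.F Ea] [IsScalarTower K E Ea]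
  [IsScalarTower k E Ea] [IsScalarTower K k Ea] [IsScalarTower K A.F Ea] [BC K E A.F Ea]

include M Ma in
/-- identity `(*)`, for given `M` and `M(a)` -/
theorem star_of_fields [IsAlgClosed K] [IsAlgClosed k] {u : E} (hu : Transcendental k u)
    [FiniteDimensional k⟮u⟯ E]
    [IsGalois k⟮u⟯ E] (f : A.F) (P Q : A.Pt E) :
    ∑ s : E ≃ₐ[k⟮u⟯] E, A.hgt k Ea f (A.map (IsScalarTower.toAlgHom K E Ea)
      (P + A.map ((s.toAlgHom.restrictScalars k).restrictScalars K) Q)) =
    Fintype.card (E ≃ₐ[k⟮u⟯] E) * (A.hgt k Ea f (A.map (IsScalarTower.toAlgHom K E Ea) P) +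
      A.hgt k Ea f (A.map (IsScalarTower.toAlgHom K E Ea) Q)) := by
  haveI : IsFF k E := ⟨⟨u, hu, inferInstance⟩⟩
  haveI : Finite (InfPl k u) := finite_infPl u
  haveI : Fintype (InfPl k u) := Fintype.ofFinite _
  rw [A.star_of_poles' k M Ma Ea hu f P Q (fun i : InfPl k u × Bool => rp K M i)
    (fun i c => rp_lin i c) (rp_injective K M u) (fun i => eInf i.1)
    (fun i => (eInf_pos i.1).ne') (fun i => (rp_span i).choose)
    (fun i => (rp_span i).choose_spec)
    (fun hΦ V hV hlam => exists_eq_rp A Ea hu P Q f rfl V hV hΦ hlam)]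
  rw [Fintype.sum_prod_type]
  have h1 : ∀ p : InfPl k u, ∑ b : Bool, eInf (p, b).1 * A.hgt k Ea f
      (A.map (IsScalarTower.toAlgHom K E Ea) (A.red (rp K M (p, b)) (A.ypt M P Q))) =
      eInf p * (A.hgt k Ea f (A.map (IsScalarTower.toAlgHom K E Ea) P) +
        A.hgt k Ea f (A.map (IsScalarTower.toAlgHom K E Ea) Q)) := by
    intro p
    rw [Fintype.sum_bool, ypt, red_rp_true, red_rp_false]
    rw [add_comm _ Q, A.hgt_add_const f Q, A.hgt_add_const f P]
    ring
  rw [Finset.sum_congr rfl (fun p _ => h1 p), ← Finset.sum_mul, sum_eInf hu,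
    ← IsGalois.card_aut_eq_finrank, Nat.card_eq_fintype_card]

end Main

/-- **S26, block D**: the identity `(*)` -/
theorem starStmt [IsAlgClosed K] : A.StarStmt := by
  intro k E Ω _ _ _ _ _ _ _ _ _ _ _ _ _ _ _ _ _ u hu _ _ f P Q
  let M := BCField k E (Cp E)
  letI : Algebra K M := ((algebraMap k M).comp (algebraMap K k)).toAlgebra
  haveI : IsScalarTower K k M := IsScalarTower.of_algebraMap_eq fun _ => rfl
  haveI : IsScalarTower K E M := IsScalarTower.of_algebraMap_eq fun c => by
    rw [IsScalarTower.algebraMap_apply K k E, ← IsScalarTower.algebraMap_apply k E M]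
    rfl
  haveI : IsScalarTower K (Cp E) M := IsScalarTower.of_algebraMap_eq fun c => by
    rw [IsScalarTower.algebraMap_apply K k (Cp E), ← IsScalarTower.algebraMap_apply k (Cp E) M]
    rfl
  let Ma := BCField K M A.F
  letI : Algebra k Ma := ((algebraMap M Ma).comp (algebraMap k M)).toAlgebra
  haveI : IsScalarTower k M Ma := IsScalarTower.of_algebraMap_eq fun _ => rfl
  haveI : IsScalarTower K k Ma := IsScalarTower.of_algebraMap_eq fun c => by
    rw [IsScalarTower.algebraMap_apply K M Ma, IsScalarTower.algebraMap_apply K k M]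
    rfl
  exact A.star_of_fields k M Ma Ω hu f P Q

end AVar

end Fermat.Agent.AVn
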