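import Fermat.Agent.AVn.Star
import Fermat.Agent.AVD3.Zeros
import Fermat.Agent.AVD6.Main
import Fermat.Agent.AVG.Hgt
import Fermat.Agent.BaseChangeFF.Tensor

/-!
# S26 (kb 66), block D5b: inputs of the identity `(*)`
-/

set_option autoImplicit false

noncomputable section

universe u

open IntermediateField

namespace Fermat.Agent.AVn

open Fermat.Agent.BaseChangeFF Fermat.Agent.AVG Fermat.Agent.AVH

namespace AVar

variable {K : Type u} [Field K] {g : ℕ} (A : AVar K g)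

theorem trdeg_fd_sub_gpt [IsAlgClosed K] (E Ea : Type u) [Field E] [Field Ea] [Algebra K E]
    [Algebra E Ea] [Algebra K Ea] [Algebra A.F Ea] [IsScalarTower K E Ea]
    [IsScalarTower K A.F Ea] [BC K E A.F Ea] (P : A.Pt E) : Algebra.trdeg K
      (A.fd (A.map (IsScalarTower.toAlgHom K E Ea) P - A.gpt Ea)) = g := by
  have h1 := A.gen_gpt E Ea
  have h2 : A.fd (A.map (IsScalarTower.toAlgHom K E Ea) P) ≤
      (IsScalarTower.toAlgHom K E Ea).fieldRange := by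
    rw [A.fd_map]
    rintro _ ⟨x, -, rfl⟩
    exact ⟨x, rfl⟩
  have h3 := A.br_gen_neg (A.br_gen_sub h1 h2)
  rw [neg_sub] at h3
  exact ((A.br_gen_iff _ _).mp h3).1

section Main

variable (k : Type u) {E : Type u} (M Ma Ea : Type u) [Field k] [Field E] [Field M] [Field Ma]
  [Field Ea]
  [Algebra K k] [Algebra k E] [Algebra K E] [IsScalarTower K k E]
  [Algebra k M] [Algebra K M] [Algebra E M] [Algebra (Cp E) M]
  [IsScalarTower k E M] [IsScalarTower k (Cp E) M] [IsScalarTower K k M] [IsScalarTower K E M]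
  [IsScalarTower K (Cp E) M] [BC k E (Cp E) M]
  [Algebra M Ma] [Algebra K Ma] [Algebra k Ma] [Algebra A.F Ma] [IsScalarTower K M Ma]
  [IsScalarTower k M Ma] [IsScalarTower K k Ma] [IsScalarTower K A.F Ma] [BC K M A.F Ma]
  [Algebra E Ea] [Algebra K Ea] [Algebra k Ea] [Algebra A.F Ea] [IsScalarTower K E Ea]
  [IsScalarTower k E Ea] [IsScalarTower K k Ea] [IsScalarTower K A.F Ea] [BC K E A.F Ea]

/-- identity `(*)`, the poles being given -/
theorem star_of_poles' [IsAlgClosed K] [IsAlgClosed k] {u : E} (hu : Transcendental k u)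
    [FiniteDimensional k⟮u⟯ E]
    [IsGalois k⟮u⟯ E] (f : A.F) (P Q : A.Pt E)
    {ι' : Type*} [Fintype ι'] (𝔯' : ι' → RDk K M E)
    (hk' : ∀ i, ∀ c : k, ∃ h : algebraMap k M c ∈ (𝔯' i).A, (𝔯' i).π ⟨_, h⟩ = algebraMap k E c)
    (hinj' : Function.Injective (fun i => (𝔯' i).A))
    [∀ i, IsDiscreteValuationRing (𝔯' i).A]
    (e' : ι' → ℕ) (he0' : ∀ i, e' i ≠ 0) (hxv' : ∀ i, (lamM M u)⁻¹ ∈ (𝔯' i).A)
    (he' : ∀ i, Ideal.span {(⟨(lamM M u)⁻¹, hxv' i⟩ : (𝔯' i).A)} =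
      IsLocalRing.maximalIdeal (𝔯' i).A ^ e' i)
    (hall' : Transcendental (A.ka k Ma)
        (A.ev (A.map (IsScalarTower.toAlgHom K M Ma) (A.ypt M P Q) - A.gpt Ma) f) →
      ∀ V : ValuationSubring Ma,
      (∀ z ∈ A.kaf k Ma f (A.map (IsScalarTower.toAlgHom K M Ma) (A.ypt M P Q)), z ∈ V) →
      algebraMap M Ma (lamM M u) ∉ V → ∃ i, V = (𝔯' i).O A.F Ma Ea) :
    ∑ s : E ≃ₐ[k⟮u⟯] E, A.hgt k Ea f (A.map (IsScalarTower.toAlgHom K E Ea)
      (P + A.map ((s.toAlgHom.restrictScalars k).restrictScalars K) Q)) =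
    ∑ i, e' i * A.hgt k Ea f
      (A.map (IsScalarTower.toAlgHom K E Ea) (A.red (𝔯' i) (A.ypt M P Q))) :=
  A.star_of_poles k M Ma Ea hu f P Q 𝔯' hk' hinj' (A.trdeg_fd_sub_gpt E Ea)
    (fun P h => AVD6.hgt_eq_zero_of_isAlgebraic' A E hu f _ (not_not.mp h)) e' he0' hxv' he'
    (fun hΦ V hV _ hlam => AVD3.exists_eq_rz_O' A Ea hu P Q f V rfl hV hΦ hlam) hall'

end Main

end AVar

end Fermat.Agent.AVn
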